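import Mathlib
import Fermat.Agent.LT.T7.H62.RigidAut

/-!
# Row LT, tower T7, node T7.14 `RigidC`, LEAF `CountC` (registry 1519) -- cut (helper671)

OFF-MAIN.  Definitions, frozen Props, PROVED top.  Nothing assumed.
Vocabulary: `LT/T7/H62/RigidAut.lean` (helper62@f901254d0, sha256 e1add0c10b3f2cee, byte-identical
copy) on `T5/Spec` v4 f2d97e70, `RigidPkg` a2b090c0, `RigidSpec` a87f852b, `T7/Spec` 76a19604,
`A0` 66d3374a.

```
Rigid.CountC K  ⇐  CountMeasC K + CountLimC K + CountBddC K        (`countC_of671`, PROVED here)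
```

* `CountMeasC K` : `g ↦ cnt 𝔪 Y g` is Borel measurable on `GL₂(𝔸_K)` (`Y > 0`).
  (`cnt ≥ n` iff some `n` points of the countable set `ℙ¹(K)` lie in `cntSet`; for a fixed point
  `x` the three conditions are open/closed in `g`: `g ↦ rowNorm (rowOf x g)` and
  `g ↦ adNorm (det g)` are continuous on `GL₂(𝔸_K)`, the congruence is locally constant.)
* `CountLimC K`  : Schanuel's theorem for `ℙ¹(K)` with the adelic metric twisted by `g` and the
  congruence condition: `Y · cnt 𝔪 Y g → κ`, the SAME `κ > 0` for every `g`.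
  (helper671: `ConeCount.lean` = lattice points of `(K_∞)²` in a fundamental cone for the units,
  then sieve.)
* `CountBddC K`  : `Y · cnt 𝔪 Y g ≤ C` for `0 < Y ≤ 1`, uniformly in `g`.
  (`cnt` is left `GL₂(K)`-invariant and `Z(𝔸)`-invariant in `g`; reduction theory `T1.ReductionC`
  puts `g` in a Siegel set, where all points except `[0 : 1]` have height `≤ 1 / c`; packing.
  The congruence condition only decreases the count.)
-/

set_option autoImplicit false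

open AutomorphicForm IsDedekindDomain NumberField Filter Topology MeasureTheory

noncomputable section

namespace Fermat.Agent.LT.T7.H671

open Fermat.Agent.LT.H556 Fermat.Agent.LT.H556.A0 Fermat.Agent.LT.T7 Fermat.Agent.LT.T7.Rigid

attribute [local instance] Fermat.Agent.LT.T5.instMeasurableSpaceG

variable (K : Type) [Field K] [NumberField K]

/-- **LEAF COUNT-MEAS.**  `g ↦ cnt 𝔪 Y g` is Borel measurable. -/
def CountMeasC : Prop :=
  TotCplx K →
  ∀ 𝔪 : Ideal (𝓞 K), 𝔪 ≠ ⊥ →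
    ∀ Y : ℝ, 0 < Y → Measurable fun g : G K => (cnt 𝔪 Y g : ℝ)

/-- **LEAF COUNT-LIM.**  `Y · cnt 𝔪 Y g → κ` as `Y → 0⁺`, with the same `κ > 0` for every `g`. -/
def CountLimC : Prop :=
  TotCplx K →
  ∀ 𝔪 : Ideal (𝓞 K), 𝔪 ≠ ⊥ →
    ∃ κ : ℝ, 0 < κ ∧
      ∀ g : G K, Tendsto (fun Y : ℝ => Y * (cnt 𝔪 Y g : ℝ)) (𝓝[>] (0 : ℝ)) (𝓝 κ)

/-- **LEAF COUNT-BDD.**  `Y · cnt 𝔪 Y g ≤ C` for `0 < Y ≤ 1`, uniformly in `g`. -/
def CountBddC : Prop :=
  TotCplx K →
  ∀ 𝔪 : Ideal (𝓞 K), 𝔪 ≠ ⊥ →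
    ∃ C : ℝ, ∀ (g : G K) (Y : ℝ), 0 < Y → Y ≤ 1 → Y * (cnt 𝔪 Y g : ℝ) ≤ C

variable {K}

/-- **TOP of the leaf**: `Rigid.CountC K` from the three Props of this file. -/
theorem countC_of671 (hM : CountMeasC K) (hL : CountLimC K) (hB : CountBddC K) : CountC K := by
  intro hcplx 𝔪 h𝔪
  obtain ⟨κ, hκ, hlim⟩ := hL hcplx 𝔪 h𝔪
  exact ⟨κ, hκ, hM hcplx 𝔪 h𝔪, hlim, hB hcplx 𝔪 h𝔪⟩

end Fermat.Agent.LT.T7.H671

end
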