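import Mathlib

/-!
# Row LT, tower T7, node T7.14 `RigidC`: lattice points of `(K_∞)²` in a fundamental cone

OFF-MAIN (helper671).  Mathlib only.  No `sorry`, nothing assumed.

For a number field `K` (ANY signature, ANY unit rank) let `(K_∞)² = mixedSpace K × mixedSpace K`,
`pairNorm671 x = (‖x_w‖₂)_w` (Hermitian norm of the pair at every infinite place),
`pairGauge671 x = ∏_w ‖x_w‖₂ ^ [K_w : ℝ]` and

* `pairCone671 K` : the pairs `x` such that `(‖x_w‖₂)_w` lies in Mathlib's `fundamentalCone K`
  (a fundamental domain for the diagonal action of the units modulo torsion on the pairs all of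
  whose components are non-zero);
* `pairBody671 K` : the part of the cone with `pairGauge671 ≤ 1`.

Main results.

* `isBounded_pairBody671`, `measurableSet_pairBody671`, `volume_frontier_pairBody671` (`= 0`),
  `volume_pairBody671_pos`.
* `tendsto_card_pairCone671` : for EVERY `ℤ`-lattice `L` of `(K_∞)²`,
  `#{x ∈ L ∩ cone : gauge x ≤ B} / B² → vol (body) / covol L` as `B → ∞`.

This is the counting input of the Eisenstein series / Schanuel's theorem for `ℙ¹(K)` with twisted
heights for a general number field (infinitely many units).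
-/

set_option autoImplicit false
set_option linter.unusedSectionVars false

open NumberField NumberField.mixedEmbedding NumberField.InfinitePlace NumberField.Units
  NumberField.Units.dirichletUnitTheorem
  NumberField.mixedEmbedding.fundamentalCone MeasureTheory Filter Topology Bornology Module

noncomputable section

namespace Fermat.Agent.LT.T7.H671

variable (K : Type*) [Field K] [NumberField K]

/-- `(K_∞)²`. -/
abbrev Pair671 : Type _ := mixedSpace K × mixedSpace K

variable {K}

/-- The vector of the Hermitian norms of the pair `x` at the infinite places. -/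
def pairNorm671 (x : Pair671 K) : realSpace K :=
  fun w => Real.sqrt (normAtPlace w x.1 ^ 2 + normAtPlace w x.2 ^ 2)

theorem pairNorm671_apply (x : Pair671 K) (w : InfinitePlace K) :
    pairNorm671 x w = Real.sqrt (normAtPlace w x.1 ^ 2 + normAtPlace w x.2 ^ 2) := rfl

theorem pairNorm671_nonneg (x : Pair671 K) (w : InfinitePlace K) : 0 ≤ pairNorm671 x w :=
  Real.sqrt_nonneg _

theorem continuous_pairNorm671 : Continuous (pairNorm671 : Pair671 K → realSpace K) := by
  refine continuous_pi fun w => ?_
  unfold pairNorm671
  have h1 : Continuous fun x : Pair671 K => normAtPlace w x.1 :=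
    (continuous_normAtPlace w).comp continuous_fst
  have h2 : Continuous fun x : Pair671 K => normAtPlace w x.2 :=
    (continuous_normAtPlace w).comp continuous_snd
  exact ((h1.pow 2).add (h2.pow 2)).sqrt

theorem pairNorm671_smul (r : ℝ) (x : Pair671 K) :
    pairNorm671 (r • x) = |r| • pairNorm671 x := by
  ext w
  simp only [pairNorm671_apply, Prod.smul_fst, Prod.smul_snd, normAtPlace_smul, Pi.smul_apply,
    smul_eq_mul]
  rw [show (|r| * normAtPlace w x.1) ^ 2 + (|r| * normAtPlace w x.2) ^ 2
      = |r| ^ 2 * (normAtPlace w x.1 ^ 2 + normAtPlace w x.2 ^ 2) by ring,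
    Real.sqrt_mul (sq_nonneg _), Real.sqrt_sq (abs_nonneg r)]

/-- Multiplication of both components by `m`. -/
theorem pairNorm671_mul (m : mixedSpace K) (x : Pair671 K) (w : InfinitePlace K) :
    pairNorm671 (m * x.1, m * x.2) w = normAtPlace w m * pairNorm671 x w := by
  simp only [pairNorm671_apply, map_mul]
  rw [show (normAtPlace w m * normAtPlace w x.1) ^ 2 + (normAtPlace w m * normAtPlace w x.2) ^ 2
      = normAtPlace w m ^ 2 * (normAtPlace w x.1 ^ 2 + normAtPlace w x.2 ^ 2) by ring,
    Real.sqrt_mul (sq_nonneg _), Real.sqrt_sq (normAtPlace_nonneg w m)]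

theorem normAtPlace_le_pairNorm671_fst (x : Pair671 K) (w : InfinitePlace K) :
    normAtPlace w x.1 ≤ pairNorm671 x w := by
  rw [pairNorm671_apply]
  refine Real.le_sqrt_of_sq_le ?_
  nlinarith [sq_nonneg (normAtPlace w x.2)]

theorem normAtPlace_le_pairNorm671_snd (x : Pair671 K) (w : InfinitePlace K) :
    normAtPlace w x.2 ≤ pairNorm671 x w := by
  rw [pairNorm671_apply]
  refine Real.le_sqrt_of_sq_le ?_
  nlinarith [sq_nonneg (normAtPlace w x.1)]

theorem pairNorm671_eq_zero_iff (x : Pair671 K) :
    pairNorm671 x = 0 ↔ x = 0 := by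
  constructor
  · intro h
    have h1 : ∀ w, normAtPlace w x.1 = 0 := fun w =>
      le_antisymm (by
        have := normAtPlace_le_pairNorm671_fst x w
        rw [h] at this
        exact this) (normAtPlace_nonneg w _)
    have h2 : ∀ w, normAtPlace w x.2 = 0 := fun w =>
      le_antisymm (by
        have := normAtPlace_le_pairNorm671_snd x w
        rw [h] at this
        exact this) (normAtPlace_nonneg w _)
    exact Prod.ext (forall_normAtPlace_eq_zero_iff.mp h1) (forall_normAtPlace_eq_zero_iff.mp h2)
  · rintro rfl
    ext w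
    simp [pairNorm671_apply]

/-- The pair norm of `(mixedSpaceOfRealSpace y, 0)` is `y` for `y ≥ 0`. -/
theorem pairNorm671_of_real {y : realSpace K} (hy : ∀ w, 0 ≤ y w) :
    pairNorm671 ((mixedSpaceOfRealSpace y, 0) : Pair671 K) = y := by
  ext w
  simp only [pairNorm671_apply, map_zero, ne_eq, OfNat.ofNat_ne_zero, not_false_eq_true,
    zero_pow, add_zero]
  rw [normAtPlace_mixedSpaceOfRealSpace (hy w), Real.sqrt_sq (hy w)]

theorem normAtAllPlaces_pairNorm671 (x : Pair671 K) :
    normAtAllPlaces (mixedSpaceOfRealSpace (pairNorm671 x)) = pairNorm671 x :=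
  normAtAllPlaces_mixedSpaceOfRealSpace (pairNorm671_nonneg x)

/-- The gauge `∏_w ‖x_w‖₂ ^ [K_w : ℝ]`. -/
def pairGauge671 (x : Pair671 K) : ℝ :=
  mixedEmbedding.norm (mixedSpaceOfRealSpace (pairNorm671 x))

theorem pairGauge671_eq_prod (x : Pair671 K) :
    pairGauge671 x = ∏ w : InfinitePlace K, pairNorm671 x w ^ w.mult := by
  unfold pairGauge671
  rw [mixedEmbedding.norm_apply]
  refine Finset.prod_congr rfl fun w _ => ?_
  rw [normAtPlace_mixedSpaceOfRealSpace (pairNorm671_nonneg x w)]

theorem pairGauge671_nonneg (x : Pair671 K) : 0 ≤ pairGauge671 x :=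
  mixedEmbedding.norm_nonneg _

theorem continuous_pairGauge671 : Continuous (pairGauge671 : Pair671 K → ℝ) :=
  (mixedEmbedding.continuous_norm K).comp
    (mixedSpaceOfRealSpace.continuous.comp continuous_pairNorm671)

theorem pairGauge671_smul (r : ℝ) (x : Pair671 K) :
    pairGauge671 (r • x) = |r| ^ finrank ℚ K * pairGauge671 x := by
  unfold pairGauge671
  rw [pairNorm671_smul, map_smul, mixedEmbedding.norm_smul, abs_abs]

variable (K) in
/-- The cone: `(‖x_w‖₂)_w` lies in the fundamental cone of `K`. -/
def pairCone671 : Set (Pair671 K) :=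
  {x | mixedSpaceOfRealSpace (pairNorm671 x) ∈ fundamentalCone K}

variable (K) in
/-- The part of the cone with gauge `≤ 1`. -/
def pairBody671 : Set (Pair671 K) :=
  {x | x ∈ pairCone671 K ∧ pairGauge671 x ^ 2 ≤ 1}

theorem smul_mem_pairCone671 {x : Pair671 K} (hx : x ∈ pairCone671 K) {r : ℝ} (hr : 0 < r) :
    r • x ∈ pairCone671 K := by
  unfold pairCone671 at hx ⊢
  rw [Set.mem_ofPred_eq] at hx ⊢
  rw [pairNorm671_smul, map_smul]
  exact fundamentalCone.smul_mem_of_mem hx (abs_pos.mpr hr.ne').ne'

theorem mem_pairBody671_iff (x : Pair671 K) :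
    x ∈ pairBody671 K ↔ mixedSpaceOfRealSpace (pairNorm671 x) ∈ normLeOne K := by
  unfold pairBody671 pairCone671
  rw [Set.mem_ofPred_eq, Set.mem_ofPred_eq, mem_normLeOne]
  refine and_congr_right fun _ => ?_
  have h0 := pairGauge671_nonneg x
  constructor
  · intro h
    have : pairGauge671 x ≤ 1 := by nlinarith
    exact this
  · intro h
    have h' : pairGauge671 x ≤ 1 := h
    nlinarith

variable (K) in
theorem pairBody671_eq_preimage :
    pairBody671 K = pairNorm671 ⁻¹' (expMapBasis '' paramSet K) := by
  ext x
  rw [mem_pairBody671_iff, normLeOne_eq_preimage, Set.mem_preimage, Set.mem_preimage,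
    normAtAllPlaces_pairNorm671]

/-! ## The measure on `(K_∞)²` -/

open scoped Classical in
variable (K) in
theorem haarPair671 : Measure.IsAddHaarMeasure (volume : Measure (Pair671 K)) :=
  Measure.prod.instIsAddHaarMeasure volume volume

open scoped Classical in
variable (K) in
theorem borelPair671 : @BorelSpace (Pair671 K) _ MeasureSpace.toMeasurableSpace :=
  inferInstance

open scoped Classical in
variable (K) in
theorem nullSingletonPair671 : NullSingletonClass (volume : Measure (Pair671 K)) :=
  Measure.prod.instNullSingletonClass_fst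

/-! ## Boundedness, measurability -/

variable (K) in
theorem isBounded_pairBody671 : IsBounded (pairBody671 K) := by
  classical
  have hb : IsBounded (expMapBasis '' paramSet K) :=
    ((isCompact_compactSet K).isBounded.subset (expMapBasis_closure_subset_compactSet K)).subset
      (Set.image_mono subset_closure)
  obtain ⟨C, hC⟩ := isBounded_iff_forall_norm_le.mp hb
  refine isBounded_iff_forall_norm_le.mpr ⟨C, fun x hx => ?_⟩
  rw [pairBody671_eq_preimage] at hx
  have h1 : ∀ w, pairNorm671 x w ≤ C := fun w => by
    have := (pi_norm_le_iff_of_nonempty _).mp (hC _ hx) w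
    rwa [Real.norm_of_nonneg (pairNorm671_nonneg x w)] at this
  rw [Prod.norm_def]
  refine max_le ?_ ?_
  · rw [norm_eq_sup'_normAtPlace]
    exact Finset.sup'_le _ _ fun w _ => (normAtPlace_le_pairNorm671_fst x w).trans (h1 w)
  · rw [norm_eq_sup'_normAtPlace]
    exact Finset.sup'_le _ _ fun w _ => (normAtPlace_le_pairNorm671_snd x w).trans (h1 w)

variable (K) in
theorem measurableSet_pairBody671 : MeasurableSet (pairBody671 K) := by
  have h : pairBody671 K
      = (fun x : Pair671 K => mixedSpaceOfRealSpace (pairNorm671 x)) ⁻¹' (normLeOne K) := by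
    ext x
    exact mem_pairBody671_iff x
  rw [h]
  exact (measurableSet_normLeOne K).preimage
    (mixedSpaceOfRealSpace.continuous.comp continuous_pairNorm671).measurable

/-! ## The frontier of the body is a null set -/

theorem expMapBasis_add671 (x y : realSpace K) :
    expMapBasis (x + y) = expMapBasis x * expMapBasis y := by
  simp_rw [expMapBasis_apply, map_add, expMap_add]

/-- The level sets of the coordinates of `expMapBasis⁻¹ ∘ pairNorm671`. -/
def levelSet671 (w : InfinitePlace K) (c : ℝ) : Set (Pair671 K) :=
  pairNorm671 ⁻¹' (expMapBasis '' {y : realSpace K | y w = c})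

theorem measurableSet_levelSet671 (w : InfinitePlace K) (c : ℝ) :
    MeasurableSet (levelSet671 w c) := by
  refine MeasurableSet.preimage ?_ continuous_pairNorm671.measurable
  refine MeasurableSet.image_of_continuousOn_injOn ?_ (continuous_expMapBasis K).continuousOn
    (injective_expMapBasis K).injOn
  exact measurableSet_eq_fun (measurable_pi_apply w) measurable_const

theorem disjoint_levelSet671 (w : InfinitePlace K) {c c' : ℝ} (h : c ≠ c') :
    Disjoint (levelSet671 w c) (levelSet671 w c') := by
  rw [Set.disjoint_left]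
  rintro x ⟨y, hy, hxy⟩ ⟨y', hy', hxy'⟩
  have : y = y' := injective_expMapBasis K (hxy.trans hxy'.symm)
  subst this
  exact h (hy.symm.trans hy')

/-- Multiplication of both components of a pair by `m`, as a linear map. -/
def mulPair671 (m : mixedSpace K) : Pair671 K →ₗ[ℝ] Pair671 K :=
  (LinearMap.mulLeft ℝ m).prodMap (LinearMap.mulLeft ℝ m)

theorem mulPair671_apply (m : mixedSpace K) (x : Pair671 K) :
    mulPair671 m x = (m * x.1, m * x.2) := rfl

theorem det_mulPair671_ne_zero {m : mixedSpace K} (hm : ∀ w, normAtPlace w m ≠ 0) :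
    LinearMap.det (mulPair671 m) ≠ 0 := by
  intro h0
  have hker := LinearMap.bot_lt_ker_of_det_eq_zero h0
  obtain ⟨x, hx, hx0⟩ := Submodule.exists_mem_ne_zero_of_ne_bot hker.ne'
  apply hx0
  rw [LinearMap.mem_ker, mulPair671_apply, Prod.mk_eq_zero] at hx
  have key : ∀ a : mixedSpace K, m * a = 0 → a = 0 := fun a ha => by
    refine forall_normAtPlace_eq_zero_iff.mp fun w => ?_
    have : normAtPlace w (m * a) = 0 := by rw [ha, map_zero]
    rw [map_mul] at this
    exact (mul_eq_zero.mp this).resolve_left (hm w)
  exact Prod.ext (key _ hx.1) (key _ hx.2)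

open scoped Classical in
theorem volume_levelSet671 (w : InfinitePlace K) (c : ℝ) :
    volume (levelSet671 w c) = 0 := by
  have := haarPair671 K
  have := borelPair671 K
  -- countably many level sets have positive measure
  have hcount : Set.Countable {t : ℝ | 0 < volume (levelSet671 w (c + t))} :=
    Measure.countable_meas_pos_of_disjoint_iUnion
      (fun t => measurableSet_levelSet671 w (c + t))
      (fun t t' htt' => disjoint_levelSet671 w (fun h => htt' (add_left_cancel h)))
  obtain ⟨t, ht⟩ : ∃ t : ℝ, t ∉ {t : ℝ | 0 < volume (levelSet671 w (c + t))} := by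
    by_contra hcon
    push Not at hcon
    have : (Set.univ : Set ℝ) ⊆ {t : ℝ | 0 < volume (levelSet671 w (c + t))} :=
      fun t _ => hcon t
    exact Cardinal.not_countable_real (hcount.mono this)
  have ht0 : volume (levelSet671 w (c + t)) = 0 := by
    simpa using ht
  -- the flow
  set e : realSpace K := expMapBasis (t • Pi.single w (1 : ℝ)) with he
  set m : mixedSpace K := mixedSpaceOfRealSpace e with hm
  have hmw : ∀ w', normAtPlace w' m = e w' := fun w' =>
    normAtPlace_mixedSpaceOfRealSpace (expMapBasis_pos _ _).le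
  have hsub : levelSet671 w c ⊆ (mulPair671 m) ⁻¹' (levelSet671 w (c + t)) := by
    rintro x ⟨y, hy, hxy⟩
    refine ⟨y + t • Pi.single w (1 : ℝ), ?_, ?_⟩
    · rw [Set.mem_ofPred_eq] at hy ⊢
      simp [hy]
    · rw [expMapBasis_add671, hxy]
      ext w'
      rw [mulPair671_apply, pairNorm671_mul, hmw, Pi.mul_apply, mul_comm]
  refine measure_mono_null hsub ?_
  rw [Measure.addHaar_preimage_linearMap volume
    (det_mulPair671_ne_zero (fun w' => by rw [hmw]; exact (expMapBasis_pos _ _).ne')), ht0,
    mul_zero]

variable (K) in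
theorem frontier_pairBody671_subset :
    frontier (pairBody671 K) ⊆
      {0} ∪ ⋃ w : InfinitePlace K, (levelSet671 w 0 ∪ levelSet671 w 1) := by
  classical
  rw [pairBody671_eq_preimage]
  refine (continuous_pairNorm671.frontier_preimage_subset _).trans ?_
  intro x hx
  rw [Set.mem_preimage, frontier, Set.mem_sdiff] at hx
  obtain ⟨hx1, hx2⟩ := hx
  have hcl : pairNorm671 x ∈ compactSet K := by
    refine (isCompact_compactSet K).isClosed.closure_subset_iff.mpr ?_ hx1
    exact (Set.image_mono subset_closure).trans (expMapBasis_closure_subset_compactSet K)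
  have hopen : IsOpen (expMapBasis '' (interior (paramSet K))) :=
    expMapBasis.isOpen_image_of_subset_source isOpen_interior (by simp [expMapBasis_source])
  have hint : pairNorm671 x ∉ expMapBasis '' (interior (paramSet K)) := fun h =>
    hx2 (interior_maximal (Set.image_mono interior_subset) hopen h)
  rw [compactSet_eq_union] at hcl
  rcases hcl with hcl | hcl
  · right
    obtain ⟨y, hy, hxy⟩ := hcl
    have hy' : y ∉ interior (paramSet K) := fun h => hint ⟨y, h, hxy⟩
    rw [closure_paramSet, Set.mem_univ_pi] at hy
    rw [interior_paramSet, Set.mem_univ_pi] at hy'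
    push Not at hy'
    obtain ⟨w, hw⟩ := hy'
    have hyw := hy w
    refine Set.mem_iUnion.mpr ⟨w, ?_⟩
    by_cases hw0 : w = w₀
    · rw [if_pos hw0] at hw hyw
      left
      refine ⟨y, ?_, hxy⟩
      rw [Set.mem_ofPred_eq]
      rw [Set.mem_Iio, not_lt] at hw
      exact le_antisymm hyw hw
    · rw [if_neg hw0] at hw hyw
      rw [Set.mem_Ioo, not_and_or, not_lt, not_lt] at hw
      rcases hw with hw | hw
      · left
        exact ⟨y, le_antisymm hw hyw.1, hxy⟩
      · right
        exact ⟨y, le_antisymm hyw.2 hw, hxy⟩
  · left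
    rw [Set.mem_singleton_iff] at hcl ⊢
    exact (pairNorm671_eq_zero_iff x).mp hcl

open scoped Classical in
variable (K) in
theorem volume_frontier_pairBody671 : volume (frontier (pairBody671 K)) = 0 := by
  refine measure_mono_null (frontier_pairBody671_subset K) ?_
  have := nullSingletonPair671 K
  refine measure_union_null ?_ ?_
  · exact measure_singleton _
  · refine measure_iUnion_null fun w => measure_union_null ?_ ?_
    · exact volume_levelSet671 w 0
    · exact volume_levelSet671 w 1

open scoped Classical in
variable (K) in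
theorem volume_pairBody671_pos : 0 < volume (pairBody671 K) := by
  have := haarPair671 K
  have := borelPair671 K
  have hopen : IsOpen (expMapBasis '' (interior (paramSet K))) :=
    expMapBasis.isOpen_image_of_subset_source isOpen_interior (by simp [expMapBasis_source])
  have hsub : pairNorm671 ⁻¹' (expMapBasis '' (interior (paramSet K))) ⊆ pairBody671 K := by
    rw [pairBody671_eq_preimage]
    exact Set.preimage_mono (Set.image_mono interior_subset)
  refine lt_of_lt_of_le ?_ (measure_mono hsub)
  refine IsOpen.measure_pos volume (hopen.preimage continuous_pairNorm671) ?_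
  let y : realSpace K := fun w => if w = w₀ then -1 else 1 / 2
  have hy : y ∈ interior (paramSet K) := by
    rw [interior_paramSet, Set.mem_univ_pi]
    intro w
    by_cases hw : w = w₀
    · simp [y, hw]
    · simp only [y, hw, if_false]
      constructor <;> norm_num
  refine ⟨(mixedSpaceOfRealSpace (expMapBasis y), 0), ?_⟩
  rw [Set.mem_preimage, pairNorm671_of_real (fun w => (expMapBasis_pos _ _).le)]
  exact ⟨y, hy, rfl⟩

open scoped Classical in
variable (K) in
theorem volume_pairBody671_lt_top : volume (pairBody671 K) < ⊤ := by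
  have := haarPair671 K
  have := borelPair671 K
  exact (isBounded_pairBody671 K).measure_lt_top

/-! ## Volume of the image under the coordinates of a lattice basis -/

/-- For an additive Haar measure `μ` on a finite dimensional real vector space `E` and a lattice
`L` with `ℤ`-basis `b`: the Lebesgue measure of the image of `s` under the coordinates of `b` is
`μ s / covol_μ L`. -/
theorem volume_image_equivFun671 {E : Type*} [NormedAddCommGroup E] [NormedSpace ℝ E]
    [FiniteDimensional ℝ E] [MeasurableSpace E] [BorelSpace E] (μ : Measure E)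
    [μ.IsAddHaarMeasure] (L : Submodule ℤ E) [DiscreteTopology L] [IsZLattice ℝ L]
    {ι : Type*} [Fintype ι] (b : Basis ι ℤ L) (s : Set E) :
    volume ((b.ofZLatticeBasis ℝ L).equivFun '' s)
      = μ s / ENNReal.ofReal (ZLattice.covolume L μ) := by
  classical
  set B : Basis ι ℝ E := b.ofZLatticeBasis ℝ L with hB
  set e : E ≃L[ℝ] (ι → ℝ) := B.equivFunL with he
  set ν : Measure (ι → ℝ) := μ.map e with hν
  have : ν.IsAddHaarMeasure := e.isAddHaarMeasure_map μ
  have hνeq : ν = ν (TopologicalSpace.PositiveCompacts.piIcc01 ι) • volume := by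
    have h1 := Measure.addHaarMeasure_unique ν (TopologicalSpace.PositiveCompacts.piIcc01 ι)
    rwa [addHaarMeasure_eq_volume_pi] at h1
  set c : ENNReal := ν (TopologicalSpace.PositiveCompacts.piIcc01 ι) with hc
  have hmap : ∀ t : Set (ι → ℝ), ν t = μ (e ⁻¹' t) := fun t =>
    e.toHomeomorph.toMeasurableEquiv.map_apply t
  -- the fundamental domain
  have hfd : ZSpan.fundamentalDomain B = e ⁻¹' (Set.univ.pi fun _ : ι => Set.Ico (0 : ℝ) 1) := by
    ext x
    simp only [ZSpan.mem_fundamentalDomain, Set.mem_preimage, Set.mem_univ_pi, he,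
      Basis.equivFunL_apply]
  have hcov : ENNReal.ofReal (ZLattice.covolume L μ) = μ (ZSpan.fundamentalDomain B) := by
    rw [ZLattice.covolume_eq_measure_fundamentalDomain L μ (ZLattice.isAddFundamentalDomain b μ),
      measureReal_def, ENNReal.ofReal_toReal]
    exact (ZSpan.fundamentalDomain_isBounded B).measure_lt_top.ne
  have hc1 : c = μ (ZSpan.fundamentalDomain B) := by
    have h2 : ν (Set.univ.pi fun _ : ι => Set.Ico (0 : ℝ) 1) = c := by
      conv_lhs => rw [hνeq]
      rw [Measure.smul_apply, Real.volume_pi_Ico]
      simp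
    rw [← h2, hmap, hfd]
  have hc0 : c ≠ 0 := by
    rw [hc1, ← hcov]
    exact (ENNReal.ofReal_pos.mpr (ZLattice.covolume_pos L μ)).ne'
  have hctop : c ≠ ⊤ := by
    rw [hc1, ← hcov]
    exact ENNReal.ofReal_ne_top
  have h3 : μ s = c * volume (e '' s) := by
    have h4 : ν (e '' s) = μ s := by
      rw [hmap, e.injective.preimage_image]
    rw [← h4]
    conv_lhs => rw [hνeq]
    rw [Measure.smul_apply, smul_eq_mul]
  have h5 : (B.equivFun '' s) = e '' s := rfl
  rw [h5, hcov, ← hc1, h3, mul_comm, ENNReal.mul_div_cancel_right hc0 hctop]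

/-! ## The counting theorem -/

theorem finrank_pair671 : finrank ℝ (Pair671 K) = 2 * finrank ℚ K := by
  rw [Module.finrank_prod, mixedEmbedding.finrank]
  ring

open scoped Classical in
/-- **Lattice points in the fundamental cone of `(K_∞)²`.**  For every `ℤ`-lattice `L` of
`(K_∞)²`: `#{x ∈ L ∩ cone : gauge x ≤ B} / B² → vol (body) / covol L` as `B → ∞`. -/
theorem tendsto_card_pairCone671 (L : Submodule ℤ (Pair671 K)) [DiscreteTopology L]
    [IsZLattice ℝ L] :
    Tendsto (fun B : ℝ =>
        (Nat.card {x : Pair671 K // x ∈ pairCone671 K ∧ pairGauge671 x ≤ B ∧ x ∈ L} : ℝ) / B ^ 2)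
      atTop (𝓝 ((volume (pairBody671 K)).toReal / ZLattice.covolume L volume)) := by
  have hHaar := haarPair671 K
  have hBorel := borelPair671 K
  set b := Module.Free.chooseBasis ℤ L with hb
  have hcard : Fintype.card (Module.Free.ChooseBasisIndex ℤ L) = 2 * finrank ℚ K := by
    rw [← Module.finrank_eq_card_chooseBasisIndex, ZLattice.rank ℝ L, finrank_pair671]
  have : Nonempty (Module.Free.ChooseBasisIndex ℤ L) := by
    rw [← Fintype.card_pos_iff, hcard]
    have := Module.finrank_pos (R := ℚ) (M := K)
    omega
  have hF : ∀ (x : Pair671 K) ⦃r : ℝ⦄, 0 ≤ r →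
      (fun x : Pair671 K => pairGauge671 x ^ 2) (r • x)
        = r ^ Fintype.card (Module.Free.ChooseBasisIndex ℤ L)
          * (fun x : Pair671 K => pairGauge671 x ^ 2) x := by
    intro x r hr
    simp only [pairGauge671_smul, hcard, abs_of_nonneg hr]
    ring
  have hbody : {x : Pair671 K | x ∈ pairCone671 K ∧ pairGauge671 x ^ 2 ≤ 1} = pairBody671 K := rfl
  have key := ZLattice.covolume.tendsto_card_le_div'' (L := L) b
    (X := pairCone671 K) (F := fun x : Pair671 K => pairGauge671 x ^ 2)
    (fun x r hx hr => smul_mem_pairCone671 hx hr) hF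
    (by rw [hbody]; exact isBounded_pairBody671 K)
    (by rw [hbody]; exact measurableSet_pairBody671 K)
    (by
      rw [hbody]
      have h1 : frontier ((b.ofZLatticeBasis ℝ L).equivFun '' pairBody671 K)
          = (b.ofZLatticeBasis ℝ L).equivFun '' frontier (pairBody671 K) :=
        ((b.ofZLatticeBasis ℝ L).equivFunL.toHomeomorph.image_frontier _).symm
      rw [h1, volume_image_equivFun671 volume L b, volume_frontier_pairBody671,
        ENNReal.zero_div])
  rw [hbody, measureReal_def, volume_image_equivFun671 volume L b, ENNReal.toReal_div,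
    ENNReal.toReal_ofReal (ZLattice.covolume_pos L volume).le] at key
  have hsq : Tendsto (fun B : ℝ => B ^ 2) atTop atTop :=
    tendsto_pow_atTop (by norm_num)
  refine (key.comp hsq).congr' ?_
  filter_upwards [eventually_ge_atTop 0] with B hB
  simp only [Function.comp_apply]
  congr 2
  refine Nat.card_congr (Equiv.subtypeEquivRight fun x => ?_)
  simp only [Set.mem_inter_iff, Set.mem_ofPred_eq, SetLike.mem_coe]
  have h0 := pairGauge671_nonneg x
  have hiff : pairGauge671 x ^ 2 ≤ B ^ 2 ↔ pairGauge671 x ≤ B :=
    pow_le_pow_iff_left₀ h0 hB (by norm_num)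
  rw [hiff]
  tauto

end Fermat.Agent.LT.T7.H671
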