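import Mathlib
import Fermat.Agent.LT.T7.H62.RigidAut
import Fermat.Agent.LT.T7.H671.ConeCount

/-!
# Row LT, tower T7, node T7.14, leaf `CountC`: from adelic rows to `(K_∞)²`

OFF-MAIN (helper671).  Definitions and elementary lemmas; nothing assumed.

* `pairOf671 r`   : the infinite part of the row `r ∈ 𝔸²`, as an element of
                    `(K_∞)² = mixedSpace K × mixedSpace K`;
* `finNorm671 r`  : `∏_v max(|r₀|_v, |r₁|_v)`; `rowNorm r = pairGauge671 (pairOf671 r) * finNorm671 r`
                    (`rowNorm_eq671`);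
* `IsIntRow671 r` : `r` is integral at every finite place;
* `latG671 g`     : the `ℤ`-submodule `{pairOf (ξ g) : ξ ∈ K², ξ g integral}` of `(K_∞)²`;
* `CovolC K`      : (Prop) `latG671 g` is a lattice of covolume `c₀ · ‖det g‖_𝔸`.
-/

set_option autoImplicit false
set_option linter.unusedSectionVars false

open NumberField NumberField.mixedEmbedding NumberField.InfinitePlace IsDedekindDomain
  MeasureTheory

noncomputable section

namespace Fermat.Agent.LT.T7.H671

open Fermat.Agent.LT.H556 Fermat.Agent.LT.H556.A0 Fermat.Agent.LT.T7.Rigid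

variable {K : Type} [Field K] [NumberField K]

/-- The infinite part of an adele, in the mixed space. -/
def infMixed671 (a : Adl K) : mixedSpace K := InfiniteAdeleRing.ringEquiv_mixedSpace K a.1

theorem adl_fst_add671 (a b : Adl K) : (a + b).1 = a.1 + b.1 := rfl

theorem adl_fst_mul671 (a b : Adl K) : (a * b).1 = a.1 * b.1 := rfl

theorem adl_fst_zero671 : (0 : Adl K).1 = 0 := rfl

theorem adl_fst_one671 : (1 : Adl K).1 = 1 := rfl

theorem adl_fst_neg671 (a : Adl K) : (-a).1 = -a.1 := rfl

theorem infMixed671_add (a b : Adl K) : infMixed671 (a + b) = infMixed671 a + infMixed671 b := by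
  unfold infMixed671
  rw [adl_fst_add671, map_add]

theorem infMixed671_mul (a b : Adl K) : infMixed671 (a * b) = infMixed671 a * infMixed671 b := by
  unfold infMixed671
  rw [adl_fst_mul671, map_mul]

theorem infMixed671_zero : infMixed671 (0 : Adl K) = 0 := by
  unfold infMixed671
  rw [adl_fst_zero671, map_zero]

theorem infMixed671_one : infMixed671 (1 : Adl K) = 1 := by
  unfold infMixed671
  rw [adl_fst_one671, map_one]

theorem infMixed671_neg (a : Adl K) : infMixed671 (-a) = -infMixed671 a := by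
  unfold infMixed671
  rw [adl_fst_neg671, map_neg]

theorem infMixed671_algebraMap (x : K) :
    infMixed671 (algebraMap K (Adl K) x) = mixedEmbedding K x := by
  unfold infMixed671
  rw [InfiniteAdeleRing.mixedEmbedding_eq_algebraMap_comp]
  rfl

theorem normAtPlace_infMixed671 (a : Adl K) (w : InfinitePlace K) :
    normAtPlace w (infMixed671 a) = ‖a.1 w‖ := by
  unfold infMixed671
  rw [InfiniteAdeleRing.ringEquiv_mixedSpace_apply]
  obtain hw | hw := isReal_or_isComplex w
  · rw [normAtPlace_apply_of_isReal hw]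
    exact (InfinitePlace.Completion.isometry_extensionEmbeddingOfIsReal hw).norm_map_of_map_zero
      (map_zero _) _
  · rw [normAtPlace_apply_of_isComplex hw]
    exact (InfinitePlace.Completion.isometry_extensionEmbedding w).norm_map_of_map_zero
      (map_zero _) _

/-- The infinite part of a row, as a pair. -/
def pairOf671 (r : Fin 2 → Adl K) : Pair671 K := (infMixed671 (r 0), infMixed671 (r 1))

theorem pairOf671_add (r s : Fin 2 → Adl K) : pairOf671 (r + s) = pairOf671 r + pairOf671 s := by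
  unfold pairOf671
  rw [Pi.add_apply, Pi.add_apply, infMixed671_add, infMixed671_add]
  rfl

theorem pairOf671_zero : pairOf671 (0 : Fin 2 → Adl K) = 0 := by
  unfold pairOf671
  rw [Pi.zero_apply, Pi.zero_apply, infMixed671_zero]
  rfl

theorem pairOf671_neg (r : Fin 2 → Adl K) : pairOf671 (-r) = -pairOf671 r := by
  unfold pairOf671
  rw [Pi.neg_apply, Pi.neg_apply, infMixed671_neg, infMixed671_neg]
  rfl

theorem pairNorm671_pairOf (r : Fin 2 → Adl K) (w : InfinitePlace K) :
    pairNorm671 (pairOf671 r) w = Real.sqrt (‖(r 0).1 w‖ ^ 2 + ‖(r 1).1 w‖ ^ 2) := by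
  rw [pairNorm671_apply]
  unfold pairOf671
  rw [normAtPlace_infMixed671, normAtPlace_infMixed671]

theorem pairGauge671_pairOf (r : Fin 2 → Adl K) :
    pairGauge671 (pairOf671 r)
      = ∏ w : InfinitePlace K, (‖(r 0).1 w‖ ^ 2 + ‖(r 1).1 w‖ ^ 2) ^ ((w.mult : ℝ) / 2) := by
  rw [pairGauge671_eq_prod]
  refine Finset.prod_congr rfl fun w _ => ?_
  rw [pairNorm671_pairOf]
  have h0 : 0 ≤ ‖(r 0).1 w‖ ^ 2 + ‖(r 1).1 w‖ ^ 2 := by positivity
  rw [Real.sqrt_eq_rpow, ← Real.rpow_natCast, ← Real.rpow_mul h0]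
  congr 1
  ring

/-- The finite part of the norm of a row. -/
def finNorm671 (r : Fin 2 → Adl K) : ℝ :=
  ∏ᶠ v : HeightOneSpectrum (𝓞 K), max ‖(r 0).2 v‖ ‖(r 1).2 v‖

theorem rowNorm_eq671 (r : Fin 2 → Adl K) :
    rowNorm r = pairGauge671 (pairOf671 r) * finNorm671 r := by
  unfold rowNorm finNorm671
  rw [pairGauge671_pairOf]

/-- The row `r` is integral at every finite place. -/
def IsIntRow671 (r : Fin 2 → Adl K) : Prop :=
  ∀ (v : HeightOneSpectrum (𝓞 K)) (j : Fin 2), (r j).2 v ∈ v.adicCompletionIntegers K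

theorem rowOf_add671 (x y : Fin 2 → K) (g : G K) : rowOf (x + y) g = rowOf x g + rowOf y g := by
  funext j
  simp only [rowOf, Pi.add_apply, map_add]
  ring

theorem rowOf_zero671 (g : G K) : rowOf (0 : Fin 2 → K) g = 0 := by
  funext j
  simp [rowOf]

theorem rowOf_neg671 (x : Fin 2 → K) (g : G K) : rowOf (-x) g = -rowOf x g := by
  funext j
  simp only [rowOf, Pi.neg_apply, map_neg]
  ring

theorem rowOf_smul671 (c : K) (x : Fin 2 → K) (g : G K) :
    rowOf (c • x) g = fun j => algebraMap K (Adl K) c * rowOf x g j := by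
  funext j
  simp only [rowOf, Pi.smul_apply, smul_eq_mul, map_mul]
  ring

theorem isIntRow671_add {r s : Fin 2 → Adl K} (hr : IsIntRow671 r) (hs : IsIntRow671 s) :
    IsIntRow671 (r + s) := fun v j => by
  have h : ((r + s) j).2 v = (r j).2 v + (s j).2 v := rfl
  rw [h]
  exact add_mem (hr v j) (hs v j)

theorem isIntRow671_zero : IsIntRow671 (0 : Fin 2 → Adl K) := fun v j => by
  have h : ((0 : Fin 2 → Adl K) j).2 v = 0 := rfl
  rw [h]
  exact zero_mem _

theorem isIntRow671_neg {r : Fin 2 → Adl K} (hr : IsIntRow671 r) : IsIntRow671 (-r) :=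
  fun v j => by
    have h : ((-r) j).2 v = -((r j).2 v) := rfl
    rw [h]
    exact neg_mem (hr v j)

/-- The lattice of `g`: `{pairOf (ξ g) : ξ ∈ K², ξ g integral at every finite place}`. -/
def latG671 (g : G K) : Submodule ℤ (Pair671 K) :=
  AddSubgroup.toIntSubmodule
    { carrier := {p | ∃ x : Fin 2 → K, IsIntRow671 (rowOf x g) ∧ pairOf671 (rowOf x g) = p}
      zero_mem' := ⟨0, by rw [rowOf_zero671]; exact isIntRow671_zero,
        by rw [rowOf_zero671, pairOf671_zero]⟩
      add_mem' := by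
        rintro _ _ ⟨x, hx, rfl⟩ ⟨y, hy, rfl⟩
        exact ⟨x + y, by rw [rowOf_add671]; exact isIntRow671_add hx hy,
          by rw [rowOf_add671, pairOf671_add]⟩
      neg_mem' := by
        rintro _ ⟨x, hx, rfl⟩
        exact ⟨-x, by rw [rowOf_neg671]; exact isIntRow671_neg hx,
          by rw [rowOf_neg671, pairOf671_neg]⟩ }

theorem mem_latG671 {g : G K} {p : Pair671 K} :
    p ∈ latG671 g ↔ ∃ x : Fin 2 → K, IsIntRow671 (rowOf x g) ∧ pairOf671 (rowOf x g) = p :=
  Iff.rfl

variable (K) in
open scoped Classical in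
/-- **COVOLUME.**  For every `g ∈ GL₂(𝔸_K)` the submodule `latG671 g` is a lattice of `(K_∞)²`
(discrete, spanning) and its covolume is `c₀ · ‖det g‖_𝔸`, with `c₀ > 0` independent of `g`. -/
def CovolC : Prop :=
  ∃ c₀ : ℝ, 0 < c₀ ∧ ∀ g : G K,
    ∃ (_ : DiscreteTopology (latG671 g)) (_ : IsZLattice ℝ (latG671 g)),
      ZLattice.covolume (latG671 g) volume
        = c₀ * Fermat.Agent.LT.T5.adNorm (Matrix.det (g : Matrix (Fin 2) (Fin 2) (Adl K)))

end Fermat.Agent.LT.T7.H671

end
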