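import Mathlib
import Fermat.Agent.LT.T7.H62.RigidAut
import Fermat.Agent.LT.T7.H671.ConeCount
import Fermat.Agent.LT.T7.H671.AdelicPair
import Fermat.Agent.LT.T7.H671.CountSpec

/-!
# Row LT, tower T7, node T7.14 `RigidC`, leaf `CountC`: SUB-SPEC of `CountLimC` (helper671)

OFF-MAIN.  Definitions and frozen Props only.  No `sorry`, nothing assumed.

`CountLimC K` (Schanuel's theorem for `ℙ¹(K)` with the adelic metric twisted by `g ∈ GL₂(𝔸_K)` and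
a congruence condition, ANY number field `K`) is cut into the leaves below; the reductions are
proved in `LimTop.lean` (top) and `LimPrim.lean` (single class).

```
CountLimC K  ⇐  AdNormC K (T1, closed) + IdeleClassC K + ClassDecC K + PrimC K
PrimC K      ⇐  CovolC K + LocalIdeleC K + SieveIdC K + TailC K + PlaceSumC K
TailC K      ⇐  IdeleClassC K + CovolC K                      (leaf: the implication)
ClassDecC K  ⇐  IdeleClassC-data + ContentC K + UnitsC K + ScaleC K   (leaf: the implication)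
```

## Vocabulary

* `finIdl671 a`       : the idele `(1, a)` of the finite idele `a`.
* `dgF671 a b`        : the matrix `diag((1,a), (1,b)) ∈ GL₂(𝔸_K)`; `scF671 a = dgF671 a a`.
* `finNormI671 a`     : `∏_v ‖a_v‖_v`.
* `Cong671 𝔪 r`       : the congruence clause of `Rigid.cntSet` for the row `r`.
* `IsPrimRow671 r`    : `max(‖r₀‖_v, ‖r₁‖_v) = 1` at every finite place.
* `primSet671 𝔪 B h`  : the points `p = (ξ h)_∞` of the fundamental cone with gauge `≤ B`,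
                        `ξ ∈ K²` with `ξ h` primitive and congruent.
* `cntB671 𝔪 B g`     : the points `x` of `ℙ¹(K)` with `rowNorm (x g) ≤ B`, congruent.
-/

set_option autoImplicit false

open AutomorphicForm IsDedekindDomain NumberField Filter Topology MeasureTheory
open NumberField.mixedEmbedding NumberField.InfinitePlace

noncomputable section

namespace Fermat.Agent.LT.T7.H671

open Fermat.Agent.LT.H556 Fermat.Agent.LT.H556.A0 Fermat.Agent.LT.T7 Fermat.Agent.LT.T7.Rigid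

variable {K : Type} [Field K] [NumberField K]

/-! ## Vocabulary -/

/-- The idele `(1, a)`. -/
def finIdl671 (a : (FiniteAdeleRing (𝓞 K) K)ˣ) : (Adl K)ˣ :=
  MulEquiv.prodUnits.symm (1, a)

theorem finIdl671_val (a : (FiniteAdeleRing (𝓞 K) K)ˣ) :
    ((finIdl671 a : (Adl K)ˣ) : Adl K) = (1, (a : FiniteAdeleRing (𝓞 K) K)) := rfl

/-- The matrix `diag((1,a), (1,b))`. -/
def dgF671 (a b : (FiniteAdeleRing (𝓞 K) K)ˣ) : G K where
  val := !![((finIdl671 a : (Adl K)ˣ) : Adl K), 0; 0, ((finIdl671 b : (Adl K)ˣ) : Adl K)]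
  inv := !![(((finIdl671 a)⁻¹ : (Adl K)ˣ) : Adl K), 0; 0, (((finIdl671 b)⁻¹ : (Adl K)ˣ) : Adl K)]
  val_inv := by
    ext i j
    fin_cases i <;> fin_cases j <;> simp [Matrix.mul_apply, Fin.sum_univ_two]
  inv_val := by
    ext i j
    fin_cases i <;> fin_cases j <;> simp [Matrix.mul_apply, Fin.sum_univ_two]

/-- The scalar matrix of the finite idele `a`. -/
def scF671 (a : (FiniteAdeleRing (𝓞 K) K)ˣ) : G K := dgF671 a a

/-- `∏_v ‖a_v‖_v`. -/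
def finNormI671 (a : (FiniteAdeleRing (𝓞 K) K)ˣ) : ℝ :=
  ∏ᶠ v : HeightOneSpectrum (𝓞 K), ‖(a : FiniteAdeleRing (𝓞 K) K) v‖

/-- The congruence clause of `Rigid.cntSet`. -/
def Cong671 (𝔪 : Ideal (𝓞 K)) (r : Fin 2 → Adl K) : Prop :=
  ∀ v : HeightOneSpectrum (𝓞 K), v.asIdeal ∣ 𝔪 →
    ∃ t ∈ idealClosure 𝔪 v, (r 0).2 v = t * (r 1).2 v

/-- The row `r` is primitive at every finite place. -/
def IsPrimRow671 (r : Fin 2 → Adl K) : Prop :=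
  ∀ v : HeightOneSpectrum (𝓞 K), max ‖(r 0).2 v‖ ‖(r 1).2 v‖ = 1

/-- The row `(r₀ · (1,a), r₁ · (1,b))` (`= r · dgF671 a b`). -/
def rowDg671 (a b : (FiniteAdeleRing (𝓞 K) K)ˣ) (r : Fin 2 → Adl K) : Fin 2 → Adl K :=
  ![r 0 * ((finIdl671 a : (Adl K)ˣ) : Adl K), r 1 * ((finIdl671 b : (Adl K)ˣ) : Adl K)]

/-- The points of the fundamental cone with gauge `≤ B` coming from primitive congruent rows. -/
def primSet671 (𝔪 : Ideal (𝓞 K)) (B : ℝ) (h : G K) : Set (Pair671 K) :=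
  {p | p ∈ pairCone671 K ∧ pairGauge671 p ≤ B ∧
    ∃ ξ : Fin 2 → K, pairOf671 (rowOf ξ h) = p ∧ IsPrimRow671 (rowOf ξ h) ∧
      Cong671 𝔪 (rowOf ξ h)}

/-- The points of `ℙ¹(K)` with `rowNorm ≤ B`, congruent. -/
def cntB671 (𝔪 : Ideal (𝓞 K)) (B : ℝ) (g : G K) : Set (Projectivization K (Fin 2 → K)) :=
  {x | rowNorm (rowOf x.rep g) ≤ B ∧ Cong671 𝔪 (rowOf x.rep g)}

/-- The lattice points of the cone with gauge `≤ B`. -/
def coneLat671 (B : ℝ) (h : G K) : Set (Pair671 K) :=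
  {p | p ∈ pairCone671 K ∧ pairGauge671 p ≤ B ∧ p ∈ latG671 h}

/-- `c` is a full system of representatives of the idele classes modulo `Kˣ` and the units at the
finite places (the ideal class group, idelically). -/
def IsClassRep671 {n : ℕ} (c : Fin n → (FiniteAdeleRing (𝓞 K) K)ˣ) : Prop :=
  (∀ a : (FiniteAdeleRing (𝓞 K) K)ˣ, ∃ i : Fin n, ∃ l : Kˣ, ∀ v : HeightOneSpectrum (𝓞 K),
    ‖(a : FiniteAdeleRing (𝓞 K) K) v‖
      = ‖algebraMap K (v.adicCompletion K) (l : K)‖ * ‖(c i : FiniteAdeleRing (𝓞 K) K) v‖) ∧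
  ∀ i j : Fin n, (∃ l : Kˣ, ∀ v : HeightOneSpectrum (𝓞 K),
    ‖(c i : FiniteAdeleRing (𝓞 K) K) v‖
      = ‖algebraMap K (v.adicCompletion K) (l : K)‖ * ‖(c j : FiniteAdeleRing (𝓞 K) K) v‖) → i = j

/-- `μ` is an idele of the ideal `𝔪`. -/
def IsLevelIdele671 (𝔪 : Ideal (𝓞 K)) (μ : (FiniteAdeleRing (𝓞 K) K)ˣ) : Prop :=
  (∀ v : HeightOneSpectrum (𝓞 K),
    idealClosure 𝔪 v = {t | ‖t‖ ≤ ‖(μ : FiniteAdeleRing (𝓞 K) K) v‖}) ∧
  (∀ v : HeightOneSpectrum (𝓞 K), v.asIdeal ∣ 𝔪 → ‖(μ : FiniteAdeleRing (𝓞 K) K) v‖ < 1) ∧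
  (∀ v : HeightOneSpectrum (𝓞 K), ¬ v.asIdeal ∣ 𝔪 → (μ : FiniteAdeleRing (𝓞 K) K) v = 1) ∧
  finNormI671 μ = ((Ideal.absNorm 𝔪 : ℕ) : ℝ)⁻¹

/-- `ϖ v` is the idele of a uniformiser at `v`. -/
def IsUnifFamily671 (ϖ : HeightOneSpectrum (𝓞 K) → (FiniteAdeleRing (𝓞 K) K)ˣ) : Prop :=
  ∀ v : HeightOneSpectrum (𝓞 K),
    ‖((ϖ v : (FiniteAdeleRing (𝓞 K) K)ˣ) : FiniteAdeleRing (𝓞 K) K) v‖
      = ((Ideal.absNorm v.asIdeal : ℕ) : ℝ)⁻¹ ∧
    ∀ u : HeightOneSpectrum (𝓞 K), u ≠ v →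
      ((ϖ v : (FiniteAdeleRing (𝓞 K) K)ˣ) : FiniteAdeleRing (𝓞 K) K) u = 1

open scoped Classical in
/-- First diagonal entry of the sieve matrix: `μ⁻¹ ∏_{v ∈ T, v ∤ 𝔪} ϖ_v⁻¹`. -/
def eA671 (𝔪 : Ideal (𝓞 K)) (μ : (FiniteAdeleRing (𝓞 K) K)ˣ)
    (ϖ : HeightOneSpectrum (𝓞 K) → (FiniteAdeleRing (𝓞 K) K)ˣ)
    (T : Finset (HeightOneSpectrum (𝓞 K))) : (FiniteAdeleRing (𝓞 K) K)ˣ :=
  μ⁻¹ * ∏ v ∈ T.filter (fun v => ¬ v.asIdeal ∣ 𝔪), (ϖ v)⁻¹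

/-- Second diagonal entry of the sieve matrix: `∏_{v ∈ T} ϖ_v⁻¹`. -/
def eB671 (ϖ : HeightOneSpectrum (𝓞 K) → (FiniteAdeleRing (𝓞 K) K)ˣ)
    (T : Finset (HeightOneSpectrum (𝓞 K))) : (FiniteAdeleRing (𝓞 K) K)ˣ :=
  ∏ v ∈ T, (ϖ v)⁻¹

/-- The local density removed at `v`: `N v⁻¹` if `v ∣ 𝔪`, `N v⁻²` otherwise. -/
def betaS671 (𝔪 : Ideal (𝓞 K)) (v : HeightOneSpectrum (𝓞 K)) : ℝ :=
  open scoped Classical in
  if v.asIdeal ∣ 𝔪 then ((Ideal.absNorm v.asIdeal : ℕ) : ℝ)⁻¹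
  else (((Ideal.absNorm v.asIdeal : ℕ) : ℝ)⁻¹) ^ 2

/-! ## The leaves -/

variable (K)

/-- **LEAF IDELE-CLASS** (finiteness of the class group, idelically; from Fujisaki `T1Out.fujisaki`
or from `ClassGroup (𝓞 K)` finite). -/
def IdeleClassC : Prop :=
  ∃ (n : ℕ) (c : Fin n → (FiniteAdeleRing (𝓞 K) K)ˣ), IsClassRep671 c

/-- **LEAF CONTENT.**  The content idele of a nonzero rational row twisted by `g`. -/
def ContentC : Prop :=
  ∀ (g : G K) (ξ : Fin 2 → K), ξ ≠ 0 →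
    ∃ a : (FiniteAdeleRing (𝓞 K) K)ˣ, ∀ v : HeightOneSpectrum (𝓞 K),
      ‖(a : FiniteAdeleRing (𝓞 K) K) v‖ = max ‖(rowOf ξ g 0).2 v‖ ‖(rowOf ξ g 1).2 v‖

/-- **LEAF UNITS.**  An element of `Kˣ` of norm one at every finite place is a unit of `𝓞 K`. -/
def UnitsC : Prop :=
  ∀ l : Kˣ, (∀ v : HeightOneSpectrum (𝓞 K), ‖algebraMap K (v.adicCompletion K) (l : K)‖ = 1) →
    ∃ u : (𝓞 K)ˣ, ((u : 𝓞 K) : K) = (l : K)

/-- **LEAF SCALE** (product formula): `rowNorm` of `(l ξ) g` and `ξ g` agree for `l ∈ Kˣ`. -/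
def ScaleC : Prop :=
  ∀ (g : G K) (ξ : Fin 2 → K) (l : Kˣ),
    rowNorm (rowOf ((l : K) • ξ) g) = rowNorm (rowOf ξ g)

/-- **LEAF CLASS-DEC.**  `ℙ¹(K)` is the disjoint union over the idele classes `c i` of the
primitive rows of `g · c i` modulo units; in the cone every orbit of units has exactly
`torsionOrder K` points. -/
def ClassDecC : Prop :=
  ∀ (n : ℕ) (c : Fin n → (FiniteAdeleRing (𝓞 K) K)ˣ), IsClassRep671 c →
    ∀ (𝔪 : Ideal (𝓞 K)) (g : G K) (B : ℝ), 0 < B →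
      (NumberField.Units.torsionOrder K : ℝ) * ((cntB671 𝔪 B g).ncard : ℝ)
        = ∑ i : Fin n, ((primSet671 𝔪 (B * finNormI671 (c i)) (g * scF671 (c i))).ncard : ℝ)

/-- **LEAF LOCAL-IDELE.**  Ideles of `𝔪` and of uniformisers. -/
def LocalIdeleC : Prop :=
  (∀ 𝔪 : Ideal (𝓞 K), 𝔪 ≠ ⊥ → ∃ μ : (FiniteAdeleRing (𝓞 K) K)ˣ, IsLevelIdele671 𝔪 μ) ∧
    ∃ ϖ : HeightOneSpectrum (𝓞 K) → (FiniteAdeleRing (𝓞 K) K)ˣ, IsUnifFamily671 ϖ

/-- **LEAF SIEVE-ID** (local computations): primitive and congruent rows are the integral rows for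
`diag(μ,1)⁻¹` which are integral for no `E_v⁻¹`, and the integral rows for `E_T⁻¹` are the
intersection. -/
def SieveIdC : Prop :=
  ∀ (𝔪 : Ideal (𝓞 K)), 𝔪 ≠ ⊥ → ∀ (μ : (FiniteAdeleRing (𝓞 K) K)ˣ)
    (ϖ : HeightOneSpectrum (𝓞 K) → (FiniteAdeleRing (𝓞 K) K)ˣ),
    IsLevelIdele671 𝔪 μ → IsUnifFamily671 ϖ → ∀ r : Fin 2 → Adl K,
      (IsPrimRow671 r ∧ Cong671 𝔪 r ↔
        IsIntRow671 (rowDg671 (eA671 𝔪 μ ϖ ∅) (eB671 ϖ ∅) r) ∧
          ∀ v : HeightOneSpectrum (𝓞 K),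
            ¬ IsIntRow671 (rowDg671 (eA671 𝔪 μ ϖ {v}) (eB671 ϖ {v}) r)) ∧
      ∀ T : Finset (HeightOneSpectrum (𝓞 K)),
        (IsIntRow671 (rowDg671 (eA671 𝔪 μ ϖ T) (eB671 ϖ T) r) ↔
          IsIntRow671 (rowDg671 (eA671 𝔪 μ ϖ ∅) (eB671 ϖ ∅) r) ∧
            ∀ v ∈ T, IsIntRow671 (rowDg671 (eA671 𝔪 μ ϖ {v}) (eB671 ϖ {v}) r))

/-- **LEAF TAIL.**  Uniform bound for the lattice points of the cone in the lattices of
`h · a⁻¹`, `a` a finite idele. -/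
def TailC : Prop :=
  ∀ h : G K, ∃ C : ℝ, ∀ (a : (FiniteAdeleRing (𝓞 K) K)ˣ) (B : ℝ),
    ((coneLat671 B (h * scF671 a⁻¹)).ncard : ℝ) ≤ C * B ^ 2 * finNormI671 a ^ 2

/-- **NODE PRIM** (single class): primitive congruent rows of `h` in the cone. -/
def PrimC : Prop :=
  ∀ 𝔪 : Ideal (𝓞 K), 𝔪 ≠ ⊥ → ∃ κ₀ : ℝ, 0 < κ₀ ∧ ∀ h : G K,
    Tendsto (fun B : ℝ => ((primSet671 𝔪 B h).ncard : ℝ) / B ^ 2) atTop
      (𝓝 (κ₀ / Fermat.Agent.LT.T5.adNorm (Matrix.det (h : Matrix (Fin 2) (Fin 2) (Adl K)))))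

end Fermat.Agent.LT.T7.H671

end
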