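import Mathlib
import Fermat.Agent.LT.T7.H671.ConeCount

/-!
# Row LT, tower T7, node T7.14, leaf `CountC`: the cone is a fundamental domain for the units

OFF-MAIN (helper671).  Mathlib only.  Nothing assumed.

The units `(𝓞 K)ˣ` act diagonally on `(K_∞)² = mixedSpace K × mixedSpace K`.

* `exists_unit_smul_mem_pairCone671` : every pair of nonzero gauge has a unit multiple in the cone;
* `unit_smul_mem_pairCone671_iff`    : for `x` in the cone, `u • x` is in the cone iff `u` is a
  root of unity;
* `unit_smul_pair_eq_self671`        : the action is free on pairs of nonzero gauge;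
* `pairGauge671_unit_smul`           : the gauge is invariant.
-/

set_option autoImplicit false
set_option linter.unusedSectionVars false

open NumberField NumberField.mixedEmbedding NumberField.InfinitePlace NumberField.Units
  NumberField.Units.dirichletUnitTheorem
  NumberField.mixedEmbedding.fundamentalCone MeasureTheory Filter Topology Bornology Module

noncomputable section

namespace Fermat.Agent.LT.T7.H671

variable {K : Type*} [Field K] [NumberField K]

/-- The diagonal action of a unit on a pair. -/
def unitPair671 (u : (𝓞 K)ˣ) (x : Pair671 K) : Pair671 K := (u • x.1, u • x.2)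

theorem unitPair671_eq_mul (u : (𝓞 K)ˣ) (x : Pair671 K) :
    unitPair671 u x = (mixedEmbedding K u * x.1, mixedEmbedding K u * x.2) := rfl

theorem unitPair671_one (x : Pair671 K) : unitPair671 (1 : (𝓞 K)ˣ) x = x := by
  simp [unitPair671]

theorem unitPair671_mul (u v : (𝓞 K)ˣ) (x : Pair671 K) :
    unitPair671 (u * v) x = unitPair671 u (unitPair671 v x) := by
  simp [unitPair671, mul_smul]

theorem pairNorm671_unit (u : (𝓞 K)ˣ) (x : Pair671 K) (w : InfinitePlace K) :
    pairNorm671 (unitPair671 u x) w = w (u : K) * pairNorm671 x w := by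
  rw [unitPair671_eq_mul, pairNorm671_mul, normAtPlace_apply]

theorem normAtPlace_unit_smul_real671 (u : (𝓞 K)ˣ) (x : Pair671 K) (w : InfinitePlace K) :
    normAtPlace w (u • mixedSpaceOfRealSpace (pairNorm671 x))
      = normAtPlace w (mixedSpaceOfRealSpace (pairNorm671 (unitPair671 u x))) := by
  rw [normAtPlace_mixedSpaceOfRealSpace (pairNorm671_nonneg _ w), pairNorm671_unit]
  change normAtPlace w (mixedEmbedding K u * mixedSpaceOfRealSpace (pairNorm671 x)) = _
  rw [map_mul, normAtPlace_apply, normAtPlace_mixedSpaceOfRealSpace (pairNorm671_nonneg _ w)]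

theorem unit_smul_mem_cone_iff671 (u : (𝓞 K)ˣ) (x : Pair671 K) :
    unitPair671 u x ∈ pairCone671 K
      ↔ u • mixedSpaceOfRealSpace (pairNorm671 x) ∈ fundamentalCone K := by
  unfold pairCone671
  rw [Set.mem_ofPred_eq]
  constructor
  · intro h
    exact fundamentalCone.mem_of_normAtPlace_eq h
      (fun w => normAtPlace_unit_smul_real671 u x w)
  · intro h
    exact fundamentalCone.mem_of_normAtPlace_eq h
      (fun w => (normAtPlace_unit_smul_real671 u x w).symm)

theorem pairGauge671_unit_smul (u : (𝓞 K)ˣ) (x : Pair671 K) :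
    pairGauge671 (unitPair671 u x) = pairGauge671 x := by
  unfold pairGauge671
  have h1 : mixedEmbedding.norm (mixedSpaceOfRealSpace (pairNorm671 (unitPair671 u x)))
      = mixedEmbedding.norm (u • mixedSpaceOfRealSpace (pairNorm671 x)) := by
    rw [mixedEmbedding.norm_apply, mixedEmbedding.norm_apply]
    exact Finset.prod_congr rfl fun w _ => by rw [normAtPlace_unit_smul_real671]
  rw [h1, norm_unit_smul]

/-- Every pair of nonzero gauge has a unit multiple in the cone. -/
theorem exists_unit_smul_mem_pairCone671 {x : Pair671 K} (hx : pairGauge671 x ≠ 0) :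
    ∃ u : (𝓞 K)ˣ, unitPair671 u x ∈ pairCone671 K := by
  obtain ⟨u, hu⟩ := fundamentalCone.exists_unit_smul_mem (K := K)
    (x := mixedSpaceOfRealSpace (pairNorm671 x)) hx
  exact ⟨u, (unit_smul_mem_cone_iff671 u x).mpr hu⟩

/-- For `x` in the cone, `u • x` is in the cone iff `u` is a root of unity. -/
theorem unit_smul_mem_pairCone671_iff {x : Pair671 K} (hx : x ∈ pairCone671 K) (u : (𝓞 K)ˣ) :
    unitPair671 u x ∈ pairCone671 K ↔ u ∈ torsion K := by
  rw [unit_smul_mem_cone_iff671]
  exact fundamentalCone.unit_smul_mem_iff_mem_torsion hx u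

theorem pairGauge671_ne_zero_of_mem_cone {x : Pair671 K} (hx : x ∈ pairCone671 K) :
    pairGauge671 x ≠ 0 :=
  (fundamentalCone.norm_pos_of_mem hx).ne'

theorem pairNorm671_pos_of_gauge_ne_zero {x : Pair671 K} (hx : pairGauge671 x ≠ 0)
    (w : InfinitePlace K) : 0 < pairNorm671 x w := by
  rcases (pairNorm671_nonneg x w).lt_or_eq with h | h
  · exact h
  · exfalso
    apply hx
    rw [pairGauge671_eq_prod]
    exact Finset.prod_eq_zero (Finset.mem_univ w) (by rw [← h]; exact zero_pow w.mult_ne_zero)

/-- The action of the units is free on the pairs of nonzero gauge. -/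
theorem unit_smul_pair_eq_self671 {x : Pair671 K} (hx : pairGauge671 x ≠ 0) {u : (𝓞 K)ˣ}
    (hu : unitPair671 u x = x) : u = 1 := by
  classical
  obtain ⟨w⟩ := (inferInstance : Nonempty (InfinitePlace K))
  have hpos := pairNorm671_pos_of_gauge_ne_zero hx w
  -- one of the two components is nonzero at `w`
  have hne : normAtPlace w x.1 ≠ 0 ∨ normAtPlace w x.2 ≠ 0 := by
    by_contra hcon
    push Not at hcon
    rw [pairNorm671_apply, hcon.1, hcon.2] at hpos
    simp at hpos
  rw [unitPair671_eq_mul, Prod.ext_iff] at hu
  have key : ∀ a : mixedSpace K, normAtPlace w a ≠ 0 → mixedEmbedding K u * a = a → u = 1 := by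
    intro a ha hmul
    have h1 : (mixedEmbedding K ((u : K) - 1)) * a = 0 := by
      rw [map_sub, map_one, sub_mul, one_mul, hmul, sub_self]
    have h2 : normAtPlace w (mixedEmbedding K ((u : K) - 1)) = 0 := by
      have := congrArg (normAtPlace w) h1
      rw [map_mul, map_zero] at this
      exact (mul_eq_zero.mp this).resolve_right ha
    rw [normAtPlace_apply] at h2
    have h3 : (u : K) - 1 = 0 := by
      by_contra h
      exact (w.pos_iff.mpr h).ne' h2
    have h4 : (u : K) = 1 := sub_eq_zero.mp h3
    exact Units.ext (RingOfIntegers.ext (by simpa using h4))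
  rcases hne with h | h
  · exact key _ h hu.1
  · exact key _ h hu.2

end Fermat.Agent.LT.T7.H671
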