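import Mathlib
import Fermat.Agent.LT.T7.H671.LimSpec
import Fermat.Agent.LT.T7.H671.ConeOrbit
import Fermat.Agent.LT.T1.H309.AdNorm

/-!
# Row LT, tower T7, leaf `CountLimC`: basic lemmas for the vocabulary of `LimSpec.lean` (helper671)

OFF-MAIN.  No `sorry`, nothing assumed.
-/

set_option autoImplicit false

open AutomorphicForm IsDedekindDomain NumberField Filter Topology MeasureTheory
open NumberField.mixedEmbedding NumberField.InfinitePlace

noncomputable section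

namespace Fermat.Agent.LT.T7.H671

open Fermat.Agent.LT.H556 Fermat.Agent.LT.H556.A0 Fermat.Agent.LT.T7 Fermat.Agent.LT.T7.Rigid

variable {K : Type} [Field K] [NumberField K]

/-! ## The diagonal matrices of finite ideles -/

theorem finIdl671_fst (a : (FiniteAdeleRing (𝓞 K) K)ˣ) :
    ((finIdl671 a : (Adl K)ˣ) : Adl K).1 = 1 := rfl

theorem finIdl671_snd (a : (FiniteAdeleRing (𝓞 K) K)ˣ) :
    ((finIdl671 a : (Adl K)ˣ) : Adl K).2 = (a : FiniteAdeleRing (𝓞 K) K) := rfl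

theorem finIdl671_mul (a b : (FiniteAdeleRing (𝓞 K) K)ˣ) :
    finIdl671 (a * b) = finIdl671 a * finIdl671 b := by
  apply Units.ext
  rw [Units.val_mul, finIdl671_val, finIdl671_val, finIdl671_val]
  refine Prod.ext ?_ ?_
  · show (1 : InfiniteAdeleRing K) = 1 * 1
    rw [one_mul]
  · show ((a * b : (FiniteAdeleRing (𝓞 K) K)ˣ) : FiniteAdeleRing (𝓞 K) K)
      = (a : FiniteAdeleRing (𝓞 K) K) * (b : FiniteAdeleRing (𝓞 K) K)
    rw [Units.val_mul]

theorem finIdl671_one : finIdl671 (1 : (FiniteAdeleRing (𝓞 K) K)ˣ) = 1 := by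
  apply Units.ext
  rw [finIdl671_val]
  rfl

theorem dgF671_val (a b : (FiniteAdeleRing (𝓞 K) K)ˣ) :
    ((dgF671 a b : G K) : Matrix (Fin 2) (Fin 2) (Adl K))
      = !![((finIdl671 a : (Adl K)ˣ) : Adl K), 0; 0, ((finIdl671 b : (Adl K)ˣ) : Adl K)] := rfl

theorem dgF671_mul (a b a' b' : (FiniteAdeleRing (𝓞 K) K)ˣ) :
    dgF671 a b * dgF671 a' b' = dgF671 (a * a') (b * b') := by
  apply Units.ext
  rw [Units.val_mul, dgF671_val, dgF671_val, dgF671_val, finIdl671_mul, finIdl671_mul]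
  ext i j
  fin_cases i <;> fin_cases j <;> simp [Matrix.mul_apply, Fin.sum_univ_two]

theorem dgF671_one : dgF671 (1 : (FiniteAdeleRing (𝓞 K) K)ˣ) 1 = 1 := by
  apply Units.ext
  rw [dgF671_val, finIdl671_one]
  ext i j
  fin_cases i <;> fin_cases j <;> simp

theorem scF671_one : scF671 (1 : (FiniteAdeleRing (𝓞 K) K)ˣ) = 1 := dgF671_one

theorem rowOf_mul_dgF671 (ξ : Fin 2 → K) (h : G K) (a b : (FiniteAdeleRing (𝓞 K) K)ˣ) :
    rowOf ξ (h * dgF671 a b) = rowDg671 a b (rowOf ξ h) := by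
  funext j
  unfold rowOf rowDg671
  rw [Units.val_mul, dgF671_val]
  fin_cases j <;> simp [Matrix.mul_apply, Fin.sum_univ_two] <;> ring

theorem rowDg671_zero_fst (a b : (FiniteAdeleRing (𝓞 K) K)ˣ) (r : Fin 2 → Adl K) :
    (rowDg671 a b r 0).1 = (r 0).1 := by
  show (r 0).1 * 1 = (r 0).1
  rw [mul_one]

theorem rowDg671_one_fst (a b : (FiniteAdeleRing (𝓞 K) K)ˣ) (r : Fin 2 → Adl K) :
    (rowDg671 a b r 1).1 = (r 1).1 := by
  show (r 1).1 * 1 = (r 1).1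
  rw [mul_one]

theorem rowDg671_zero_snd (a b : (FiniteAdeleRing (𝓞 K) K)ˣ) (r : Fin 2 → Adl K)
    (v : HeightOneSpectrum (𝓞 K)) :
    (rowDg671 a b r 0).2 v = (r 0).2 v * (a : FiniteAdeleRing (𝓞 K) K) v := rfl

theorem rowDg671_one_snd (a b : (FiniteAdeleRing (𝓞 K) K)ˣ) (r : Fin 2 → Adl K)
    (v : HeightOneSpectrum (𝓞 K)) :
    (rowDg671 a b r 1).2 v = (r 1).2 v * (b : FiniteAdeleRing (𝓞 K) K) v := rfl

theorem pairOf671_rowDg (a b : (FiniteAdeleRing (𝓞 K) K)ˣ) (r : Fin 2 → Adl K) :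
    pairOf671 (rowDg671 a b r) = pairOf671 r := by
  unfold pairOf671 infMixed671
  rw [rowDg671_zero_fst, rowDg671_one_fst]

theorem pairOf671_rowOf_mul_dgF (ξ : Fin 2 → K) (h : G K) (a b : (FiniteAdeleRing (𝓞 K) K)ˣ) :
    pairOf671 (rowOf ξ (h * dgF671 a b)) = pairOf671 (rowOf ξ h) := by
  rw [rowOf_mul_dgF671, pairOf671_rowDg]

/-! ## Norms -/

theorem adNorm_finIdl671 (a : (FiniteAdeleRing (𝓞 K) K)ˣ) :
    Fermat.Agent.LT.T5.adNorm ((finIdl671 a : (Adl K)ˣ) : Adl K) = finNormI671 a := by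
  unfold Fermat.Agent.LT.T5.adNorm finNormI671
  rw [finIdl671_fst, finIdl671_snd]
  have h1 : ∏ w : InfinitePlace K, ‖(1 : InfiniteAdeleRing K) w‖ ^ w.mult = 1 := by
    refine Finset.prod_eq_one fun w _ => ?_
    have : (1 : InfiniteAdeleRing K) w = 1 := rfl
    rw [this, norm_one, one_pow]
  rw [h1, one_mul]

theorem finNormI671_pos (a : (FiniteAdeleRing (𝓞 K) K)ˣ) : 0 < finNormI671 a := by
  rw [← adNorm_finIdl671]
  exact Fermat.Agent.LT.T1.H309.adNorm_pos309 K (finIdl671 a)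

theorem finNormI671_mul (a b : (FiniteAdeleRing (𝓞 K) K)ˣ) :
    finNormI671 (a * b) = finNormI671 a * finNormI671 b := by
  rw [← adNorm_finIdl671, ← adNorm_finIdl671, ← adNorm_finIdl671, finIdl671_mul]
  exact Fermat.Agent.LT.T1.H309.adNorm_mul309 K (finIdl671 a) (finIdl671 b)

theorem finNormI671_one : finNormI671 (1 : (FiniteAdeleRing (𝓞 K) K)ˣ) = 1 := by
  unfold finNormI671
  have : ∀ v : HeightOneSpectrum (𝓞 K),
      ‖((1 : (FiniteAdeleRing (𝓞 K) K)ˣ) : FiniteAdeleRing (𝓞 K) K) v‖ = 1 := fun v => by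
    have h : ((1 : (FiniteAdeleRing (𝓞 K) K)ˣ) : FiniteAdeleRing (𝓞 K) K) v = 1 := rfl
    rw [h, norm_one]
  simp only [this, finprod_one]

theorem finNormI671_inv (a : (FiniteAdeleRing (𝓞 K) K)ˣ) :
    finNormI671 a⁻¹ = (finNormI671 a)⁻¹ := by
  have h := finNormI671_mul a a⁻¹
  rw [mul_inv_cancel, finNormI671_one] at h
  exact eq_inv_of_mul_eq_one_right h.symm

theorem det_dgF671 (a b : (FiniteAdeleRing (𝓞 K) K)ˣ) :
    Matrix.det ((dgF671 a b : G K) : Matrix (Fin 2) (Fin 2) (Adl K))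
      = ((finIdl671 a * finIdl671 b : (Adl K)ˣ) : Adl K) := by
  rw [dgF671_val, Matrix.det_fin_two_of, mul_zero, sub_zero, Units.val_mul]

theorem adNorm_det_mul_dgF671 (h : G K) (a b : (FiniteAdeleRing (𝓞 K) K)ˣ) :
    Fermat.Agent.LT.T5.adNorm
        (Matrix.det ((h * dgF671 a b : G K) : Matrix (Fin 2) (Fin 2) (Adl K)))
      = Fermat.Agent.LT.T5.adNorm (Matrix.det (h : Matrix (Fin 2) (Fin 2) (Adl K)))
        * finNormI671 a * finNormI671 b := by
  rw [Units.val_mul, Matrix.det_mul, det_dgF671]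
  have hd : Matrix.det (h : Matrix (Fin 2) (Fin 2) (Adl K))
      = ((Matrix.GeneralLinearGroup.det h : (Adl K)ˣ) : Adl K) := rfl
  rw [hd, ← Units.val_mul]
  have h1 := Fermat.Agent.LT.T1.H309.adNorm_mul309 K (Matrix.GeneralLinearGroup.det h)
    (finIdl671 a * finIdl671 b)
  have h2 := Fermat.Agent.LT.T1.H309.adNorm_mul309 K (finIdl671 a) (finIdl671 b)
  have e1 : Fermat.Agent.LT.T5.adNorm
      (((Matrix.GeneralLinearGroup.det h * (finIdl671 a * finIdl671 b) : (Adl K)ˣ)) : Adl K)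
      = Fermat.Agent.LT.T1.adNorm K
        (((Matrix.GeneralLinearGroup.det h * (finIdl671 a * finIdl671 b) : (Adl K)ˣ)) : Adl K) :=
    rfl
  rw [e1, h1, h2]
  have e2 : Fermat.Agent.LT.T1.adNorm K ((finIdl671 a : (Adl K)ˣ) : Adl K) = finNormI671 a :=
    adNorm_finIdl671 a
  have e3 : Fermat.Agent.LT.T1.adNorm K ((finIdl671 b : (Adl K)ˣ) : Adl K) = finNormI671 b :=
    adNorm_finIdl671 b
  rw [e2, e3, mul_assoc]
  rfl

theorem adNorm_det_pos671 (h : G K) :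
    0 < Fermat.Agent.LT.T5.adNorm (Matrix.det (h : Matrix (Fin 2) (Fin 2) (Adl K))) :=
  Fermat.Agent.LT.T1.H309.adNorm_pos309 K (Matrix.GeneralLinearGroup.det h)

/-! ## Injectivity of `ξ ↦ (ξ h)_∞` -/

theorem rowOf_inv_fst671 (ξ : Fin 2 → K) (h : G K) (k : Fin 2) :
    (algebraMap K (Adl K) (ξ k)).1
      = (rowOf ξ h 0).1 * ((((h⁻¹ : G K) : Matrix (Fin 2) (Fin 2) (Adl K)) 0 k)).1
        + (rowOf ξ h 1).1 * ((((h⁻¹ : G K) : Matrix (Fin 2) (Fin 2) (Adl K)) 1 k)).1 := by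
  have hmul : (h : Matrix (Fin 2) (Fin 2) (Adl K)) * ((h⁻¹ : G K) : Matrix (Fin 2) (Fin 2) (Adl K))
      = 1 := by
    rw [← Units.val_mul, mul_inv_cancel, Units.val_one]
  have h0 : ∀ i : Fin 2, (h : Matrix (Fin 2) (Fin 2) (Adl K)) i 0
        * ((h⁻¹ : G K) : Matrix (Fin 2) (Fin 2) (Adl K)) 0 k
      + (h : Matrix (Fin 2) (Fin 2) (Adl K)) i 1
        * ((h⁻¹ : G K) : Matrix (Fin 2) (Fin 2) (Adl K)) 1 k
      = (1 : Matrix (Fin 2) (Fin 2) (Adl K)) i k := fun i => by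
    rw [← hmul, Matrix.mul_apply, Fin.sum_univ_two]
  have key : algebraMap K (Adl K) (ξ k)
      = rowOf ξ h 0 * ((h⁻¹ : G K) : Matrix (Fin 2) (Fin 2) (Adl K)) 0 k
        + rowOf ξ h 1 * ((h⁻¹ : G K) : Matrix (Fin 2) (Fin 2) (Adl K)) 1 k := by
    unfold rowOf
    have e : (algebraMap K (Adl K) (ξ 0) * (h : Matrix (Fin 2) (Fin 2) (Adl K)) 0 0
          + algebraMap K (Adl K) (ξ 1) * (h : Matrix (Fin 2) (Fin 2) (Adl K)) 1 0)
          * ((h⁻¹ : G K) : Matrix (Fin 2) (Fin 2) (Adl K)) 0 k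
        + (algebraMap K (Adl K) (ξ 0) * (h : Matrix (Fin 2) (Fin 2) (Adl K)) 0 1
          + algebraMap K (Adl K) (ξ 1) * (h : Matrix (Fin 2) (Fin 2) (Adl K)) 1 1)
          * ((h⁻¹ : G K) : Matrix (Fin 2) (Fin 2) (Adl K)) 1 k
        = algebraMap K (Adl K) (ξ 0) * ((h : Matrix (Fin 2) (Fin 2) (Adl K)) 0 0
            * ((h⁻¹ : G K) : Matrix (Fin 2) (Fin 2) (Adl K)) 0 k
          + (h : Matrix (Fin 2) (Fin 2) (Adl K)) 0 1
            * ((h⁻¹ : G K) : Matrix (Fin 2) (Fin 2) (Adl K)) 1 k)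
          + algebraMap K (Adl K) (ξ 1) * ((h : Matrix (Fin 2) (Fin 2) (Adl K)) 1 0
            * ((h⁻¹ : G K) : Matrix (Fin 2) (Fin 2) (Adl K)) 0 k
          + (h : Matrix (Fin 2) (Fin 2) (Adl K)) 1 1
            * ((h⁻¹ : G K) : Matrix (Fin 2) (Fin 2) (Adl K)) 1 k) := by ring
    rw [e, h0 0, h0 1]
    have hk : k = 0 ∨ k = 1 := by
      fin_cases k
      · exact Or.inl rfl
      · exact Or.inr rfl
    rcases hk with rfl | rfl <;> simp
  have := congrArg Prod.fst key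
  rw [this]
  rfl

theorem infMixed671_eq_zero_iff (a : Adl K) : infMixed671 a = 0 ↔ a.1 = 0 := by
  unfold infMixed671
  exact (InfiniteAdeleRing.ringEquiv_mixedSpace K).map_eq_zero_iff

/-- `ξ ↦ (ξ h)_∞` is injective. -/
theorem eq_zero_of_pairOf_rowOf_eq_zero671 {ξ : Fin 2 → K} {h : G K}
    (h0 : pairOf671 (rowOf ξ h) = 0) : ξ = 0 := by
  have h1 : infMixed671 (rowOf ξ h 0) = 0 := congrArg Prod.fst h0
  have h2 : infMixed671 (rowOf ξ h 1) = 0 := congrArg Prod.snd h0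
  rw [infMixed671_eq_zero_iff] at h1 h2
  funext k
  have hk := rowOf_inv_fst671 ξ h k
  rw [h1, h2, zero_mul, zero_mul, add_zero] at hk
  have hinj : Function.Injective (algebraMap K (InfiniteAdeleRing K)) :=
    (algebraMap K (InfiniteAdeleRing K)).injective
  have hk' : algebraMap K (InfiniteAdeleRing K) (ξ k) = 0 := hk
  rw [← map_zero (algebraMap K (InfiniteAdeleRing K))] at hk'
  exact hinj hk'

theorem rowOf_sub671 (x y : Fin 2 → K) (g : G K) : rowOf (x - y) g = rowOf x g - rowOf y g := by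
  rw [sub_eq_add_neg, rowOf_add671, rowOf_neg671, ← sub_eq_add_neg]

theorem pairOf671_sub (r s : Fin 2 → Adl K) : pairOf671 (r - s) = pairOf671 r - pairOf671 s := by
  rw [sub_eq_add_neg, pairOf671_add, pairOf671_neg, ← sub_eq_add_neg]

theorem pairOf_rowOf_injective671 (h : G K) :
    Function.Injective fun ξ : Fin 2 → K => pairOf671 (rowOf ξ h) := by
  intro ξ η he
  have : pairOf671 (rowOf (ξ - η) h) = 0 := by
    rw [rowOf_sub671, pairOf671_sub]
    exact sub_eq_zero.mpr he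
  exact sub_eq_zero.mp (eq_zero_of_pairOf_rowOf_eq_zero671 this)

end Fermat.Agent.LT.T7.H671

end
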