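import Mathlib

/-!
# Row LT, tower T7, node T7.14, leaf `CountC`: an abstract sieve

OFF-MAIN (helper671).  Mathlib only.  Nothing assumed.

`X ⊆ E` a set with a gauge `γ`, `A v ⊆ E` (`v : I`) the sets to be removed.  If

* `{x ∈ X : γ x ≤ B}` is finite for every `B`,
* `#{x ∈ X : γ x ≤ B, x ∈ A v ∀ v ∈ T} / B² → α · ∏_{v ∈ T} β v` for every finite `T`,
* `#{x ∈ X : γ x ≤ B, x ∈ A v} ≤ δ v · B²` with `∑ δ v < ∞`, and `0 ≤ β v ≤ 1`,

then `#{x ∈ X : γ x ≤ B, x ∉ A v ∀ v} / B² → α · L`, `L = lim_S ∏_{v ∈ S} (1 - β v)`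
(`sieve_tendsto671`), and `L > 0` if moreover `β v < 1` and `∑ β v < ∞` (`sieve_limit_pos671`).
-/

set_option autoImplicit false

open Filter Topology

noncomputable section

namespace Fermat.Agent.LT.T7.H671

variable {E I : Type*}

/-- The sieved set: `x ∈ X`, `γ x ≤ B`, `x ∈ A v` for `v ∈ T`, `x ∉ A v` for `v ∈ S`. -/
def sv671 (X : Set E) (γ : E → ℝ) (A : I → Set E) (B : ℝ) (T S : Finset I) : Set E :=
  {x | x ∈ X ∧ γ x ≤ B ∧ (∀ v ∈ T, x ∈ A v) ∧ ∀ v ∈ S, x ∉ A v}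

/-- The fully sieved set. -/
def svAll671 (X : Set E) (γ : E → ℝ) (A : I → Set E) (B : ℝ) : Set E :=
  {x | x ∈ X ∧ γ x ≤ B ∧ ∀ v, x ∉ A v}

variable {X : Set E} {γ : E → ℝ} {A : I → Set E}

theorem sv671_subset (B : ℝ) (T S : Finset I) :
    sv671 X γ A B T S ⊆ {x | x ∈ X ∧ γ x ≤ B} := fun _ hx => ⟨hx.1, hx.2.1⟩

theorem sv671_finite (hfin : ∀ B : ℝ, {x | x ∈ X ∧ γ x ≤ B}.Finite) (B : ℝ) (T S : Finset I) :
    (sv671 X γ A B T S).Finite := (hfin B).subset (sv671_subset B T S)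

theorem sv671_split [DecidableEq I] (hfin : ∀ B : ℝ, {x | x ∈ X ∧ γ x ≤ B}.Finite) (B : ℝ)
    (T S : Finset I) (v : I) :
    (sv671 X γ A B T S).ncard
      = (sv671 X γ A B T (insert v S)).ncard + (sv671 X γ A B (insert v T) S).ncard := by
  have hdisj : Disjoint (sv671 X γ A B T (insert v S)) (sv671 X γ A B (insert v T) S) := by
    rw [Set.disjoint_left]
    intro x hx hx'
    exact hx.2.2.2 v (Finset.mem_insert_self v S) (hx'.2.2.1 v (Finset.mem_insert_self v T))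
  have hunion : sv671 X γ A B T S
      = sv671 X γ A B T (insert v S) ∪ sv671 X γ A B (insert v T) S := by
    ext x
    simp only [sv671, Set.mem_union, Set.mem_ofPred_eq, Finset.mem_insert, forall_eq_or_imp]
    constructor
    · rintro ⟨h1, h2, h3, h4⟩
      by_cases hv : x ∈ A v
      · exact Or.inr ⟨h1, h2, ⟨hv, h3⟩, h4⟩
      · exact Or.inl ⟨h1, h2, h3, hv, h4⟩
    · rintro (⟨h1, h2, h3, _, h4⟩ | ⟨h1, h2, ⟨_, h3⟩, h4⟩)
      · exact ⟨h1, h2, h3, h4⟩
      · exact ⟨h1, h2, h3, h4⟩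
  rw [hunion]
  exact Set.ncard_union_eq hdisj (sv671_finite hfin B _ _) (sv671_finite hfin B _ _)

/-- The finite sieve. -/
theorem sieve_finset671 (hfin : ∀ B : ℝ, {x | x ∈ X ∧ γ x ≤ B}.Finite) {α : ℝ} {β : I → ℝ}
    (hlim : ∀ T : Finset I, Tendsto
      (fun B : ℝ => ((sv671 X γ A B T ∅).ncard : ℝ) / B ^ 2) atTop
      (𝓝 (α * ∏ v ∈ T, β v)))
    (S : Finset I) : ∀ T : Finset I, Disjoint T S →
      Tendsto (fun B : ℝ => ((sv671 X γ A B T S).ncard : ℝ) / B ^ 2) atTop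
        (𝓝 (α * (∏ v ∈ T, β v) * ∏ v ∈ S, (1 - β v))) := by
  classical
  induction S using Finset.induction_on with
  | empty =>
    intro T _
    simpa using hlim T
  | insert v S hv ih =>
    intro T hT
    have hvT : v ∉ T := fun h => (Finset.disjoint_left.mp hT h) (Finset.mem_insert_self v S)
    have hTS : Disjoint T S :=
      Finset.disjoint_left.mpr fun a ha haS =>
        (Finset.disjoint_left.mp hT ha) (Finset.mem_insert_of_mem haS)
    have hT'S : Disjoint (insert v T) S := by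
      rw [Finset.disjoint_insert_left]
      exact ⟨hv, hTS⟩
    have h1 := ih T hTS
    have h2 := ih (insert v T) hT'S
    have h3 := h1.sub h2
    have hval : α * (∏ v ∈ T, β v) * ∏ v ∈ S, (1 - β v)
        - α * (∏ v ∈ insert v T, β v) * ∏ v ∈ S, (1 - β v)
        = α * (∏ v ∈ T, β v) * ∏ v ∈ insert v S, (1 - β v) := by
      rw [Finset.prod_insert hvT, Finset.prod_insert hv]
      ring
    rw [hval] at h3
    refine h3.congr fun B => ?_
    have hs := sv671_split (A := A) hfin B T S v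
    rw [hs]
    push_cast
    ring

/-- The limit of the partial products exists. -/
theorem exists_prod_limit671 {β : I → ℝ} (hβ0 : ∀ v, 0 ≤ β v) (hβ1 : ∀ v, β v ≤ 1) :
    ∃ L : ℝ, 0 ≤ L ∧ Tendsto (fun S : Finset I => ∏ v ∈ S, (1 - β v)) atTop (𝓝 L) := by
  classical
  have hanti : Antitone fun S : Finset I => ∏ v ∈ S, (1 - β v) := by
    intro S S' hSS'
    have hsplit : ∏ v ∈ S', (1 - β v) = (∏ v ∈ S, (1 - β v)) * ∏ v ∈ S' \ S, (1 - β v) := by
      rw [← Finset.prod_union Finset.disjoint_sdiff, Finset.union_sdiff_of_subset hSS']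
    have h1 : 0 ≤ ∏ v ∈ S, (1 - β v) := Finset.prod_nonneg fun v _ => by linarith [hβ1 v]
    have h2 : ∏ v ∈ S' \ S, (1 - β v) ≤ 1 :=
      Finset.prod_le_one (fun v _ => by linarith [hβ1 v]) (fun v _ => by linarith [hβ0 v])
    change ∏ v ∈ S', (1 - β v) ≤ ∏ v ∈ S, (1 - β v)
    rw [hsplit]
    nlinarith
  have hbdd : BddBelow (Set.range fun S : Finset I => ∏ v ∈ S, (1 - β v)) :=
    ⟨0, by
      rintro _ ⟨S, rfl⟩
      exact Finset.prod_nonneg fun v _ => by linarith [hβ1 v]⟩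
  refine ⟨_, ?_, tendsto_atTop_ciInf hanti hbdd⟩
  exact le_ciInf fun S => Finset.prod_nonneg fun v _ => by linarith [hβ1 v]

/-- Weierstrass' inequality. -/
theorem one_sub_sum_le_prod671 {β : I → ℝ} (hβ0 : ∀ v, 0 ≤ β v) (hβ1 : ∀ v, β v ≤ 1)
    (S : Finset I) : 1 - ∑ v ∈ S, β v ≤ ∏ v ∈ S, (1 - β v) := by
  classical
  induction S using Finset.induction_on with
  | empty => simp
  | insert v S hv ih =>
    rw [Finset.sum_insert hv, Finset.prod_insert hv]
    have h1 : 0 ≤ ∏ v ∈ S, (1 - β v) := Finset.prod_nonneg fun v _ => by linarith [hβ1 v]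
    have h2 : ∏ v ∈ S, (1 - β v) ≤ 1 :=
      Finset.prod_le_one (fun v _ => by linarith [hβ1 v]) (fun v _ => by linarith [hβ0 v])
    have h3 := hβ0 v
    have h4 := hβ1 v
    nlinarith

/-- Positivity of the limit of the partial products. -/
theorem prod_limit_pos671 {β : I → ℝ} (hβ0 : ∀ v, 0 ≤ β v) (hβ1 : ∀ v, β v < 1)
    (hsum : Summable β) {L : ℝ}
    (hL : Tendsto (fun S : Finset I => ∏ v ∈ S, (1 - β v)) atTop (𝓝 L)) : 0 < L := by
  classical
  -- a finite set with small tail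
  have htail := tendsto_tsum_compl_atTop_zero β
  have hev : ∀ᶠ S : Finset I in atTop, ∑' a : {x // x ∉ S}, β a < 1 / 2 :=
    (tendsto_order.mp htail).2 _ (by norm_num)
  obtain ⟨S₀, hS₀⟩ := hev.exists
  set c : ℝ := ∏ v ∈ S₀, (1 - β v) with hc
  have hcpos : 0 < c := Finset.prod_pos fun v _ => by linarith [hβ1 v]
  have hlow : ∀ S : Finset I, S₀ ⊆ S → c / 2 ≤ ∏ v ∈ S, (1 - β v) := by
    intro S hS
    have hsplit : ∏ v ∈ S, (1 - β v) = c * ∏ v ∈ S \ S₀, (1 - β v) := by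
      rw [hc, ← Finset.prod_union Finset.disjoint_sdiff, Finset.union_sdiff_of_subset hS]
    rw [hsplit]
    have h1 := one_sub_sum_le_prod671 hβ0 (fun v => (hβ1 v).le) (S \ S₀)
    have h2 : ∑ v ∈ S \ S₀, β v ≤ ∑' a : {x // x ∉ S₀}, β a := by
      have hsum' : Summable fun a : {x // x ∉ S₀} => β a := hsum.subtype _
      have hmem : ∀ v ∈ S \ S₀, v ∉ S₀ := fun v hv => (Finset.mem_sdiff.mp hv).2
      have h3 : ∑ v ∈ S \ S₀, β v
          = ∑ a ∈ (S \ S₀).subtype (fun x => x ∉ S₀), β a := by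
        rw [Finset.sum_subtype_eq_sum_filter]
        refine Finset.sum_congr ?_ fun _ _ => rfl
        ext v
        simp only [Finset.mem_filter, Finset.mem_sdiff]
        tauto
      rw [h3]
      exact hsum'.sum_le_tsum _ (fun a _ => hβ0 a)
    have h4 : (1 : ℝ) / 2 ≤ ∏ v ∈ S \ S₀, (1 - β v) := by linarith
    nlinarith
  have hge : c / 2 ≤ L := by
    refine ge_of_tendsto hL ?_
    filter_upwards [eventually_ge_atTop S₀] with S hS
    exact hlow S hS
  linarith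

/-- **The sieve.** -/
theorem sieve_tendsto671 (hfin : ∀ B : ℝ, {x | x ∈ X ∧ γ x ≤ B}.Finite) {α : ℝ} {β δ : I → ℝ}
    (hlim : ∀ T : Finset I, Tendsto
      (fun B : ℝ => ((sv671 X γ A B T ∅).ncard : ℝ) / B ^ 2) atTop
      (𝓝 (α * ∏ v ∈ T, β v)))
    (hδ : Summable δ) (hδ0 : ∀ v, 0 ≤ δ v)
    (htail : ∀ (v : I) (B : ℝ), ((sv671 X γ A B {v} ∅).ncard : ℝ) ≤ δ v * B ^ 2)
    {L : ℝ} (hL : Tendsto (fun S : Finset I => ∏ v ∈ S, (1 - β v)) atTop (𝓝 L)) :
    Tendsto (fun B : ℝ => ((svAll671 X γ A B).ncard : ℝ) / B ^ 2) atTop (𝓝 (α * L)) := by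
  classical
  rw [Metric.tendsto_atTop]
  intro ε hε
  -- choose `S`
  have htail0 := tendsto_tsum_compl_atTop_zero δ
  have hev1 : ∀ᶠ S : Finset I in atTop, ∑' a : {x // x ∉ S}, δ a < ε / 3 :=
    (tendsto_order.mp htail0).2 _ (by positivity)
  have hev2 : ∀ᶠ S : Finset I in atTop, dist (α * ∏ v ∈ S, (1 - β v)) (α * L) < ε / 3 := by
    have := (hL.const_mul α)
    exact (Metric.tendsto_nhds.mp this) _ (by positivity)
  obtain ⟨S, hS1, hS2⟩ := (hev1.and hev2).exists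
  have hfinS := sieve_finset671 hfin hlim S ∅ (Finset.disjoint_empty_left S)
  simp only [Finset.prod_empty, mul_one] at hfinS
  obtain ⟨B₀, hB₀⟩ := (Metric.tendsto_atTop.mp hfinS) (ε / 3) (by positivity)
  refine ⟨max B₀ 1, fun B hB => ?_⟩
  have hBB₀ : B₀ ≤ B := le_trans (le_max_left _ _) hB
  have hB1 : 1 ≤ B := le_trans (le_max_right _ _) hB
  have hB2 : 0 < B ^ 2 := by positivity
  have h1 := hB₀ B hBB₀
  -- comparison of the two counts
  have hsub : svAll671 X γ A B ⊆ sv671 X γ A B ∅ S := fun x hx =>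
    ⟨hx.1, hx.2.1, by simp, fun v _ => hx.2.2 v⟩
  have hfinsv := sv671_finite (A := A) hfin B ∅ S
  have hle : (svAll671 X γ A B).ncard ≤ (sv671 X γ A B ∅ S).ncard :=
    Set.ncard_le_ncard hsub hfinsv
  -- the difference
  have hdiff : ((sv671 X γ A B ∅ S).ncard : ℝ) - (svAll671 X γ A B).ncard
      ≤ (∑' a : {x // x ∉ S}, δ a) * B ^ 2 := by
    have hd : (sv671 X γ A B ∅ S \ svAll671 X γ A B).ncard
        = (sv671 X γ A B ∅ S).ncard - (svAll671 X γ A B).ncard :=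
      Set.ncard_sdiff hsub ((hfin B).subset fun x hx => ⟨hx.1, hx.2.1⟩)
    have hd' : ((sv671 X γ A B ∅ S).ncard : ℝ) - (svAll671 X γ A B).ncard
        = ((sv671 X γ A B ∅ S \ svAll671 X γ A B).ncard : ℝ) := by
      rw [hd, Nat.cast_sub hle]
    rw [hd']
    set Z : Set E := sv671 X γ A B ∅ S \ svAll671 X γ A B with hZ
    have hZfin : Z.Finite := hfinsv.subset Set.sdiff_subset
    -- every element of `Z` lies in some `A v`, `v ∉ S`
    have hex : ∀ z ∈ Z, ∃ v : I, v ∉ S ∧ z ∈ A v := by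
      intro z hz
      have hz1 := hz.1
      have hz2 := hz.2
      by_contra hcon
      push Not at hcon
      apply hz2
      refine ⟨hz1.1, hz1.2.1, fun v hv => ?_⟩
      by_cases hvS : v ∈ S
      · exact hz1.2.2.2 v hvS hv
      · exact hcon v hvS hv
    rcases isEmpty_or_nonempty I with hI | hI
    · have hZe : Z = ∅ := by
        ext z
        simp only [Set.mem_empty_iff_false, iff_false]
        intro hz
        obtain ⟨v, -, -⟩ := hex z hz
        exact hI.false v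
      rw [hZe, Set.ncard_empty, Nat.cast_zero]
      have hnn : 0 ≤ ∑' a : {x // x ∉ S}, δ a := tsum_nonneg fun a => hδ0 a
      positivity
    choose! f hf using hex
    set V : Finset I := hZfin.toFinset.image f with hV
    have hVS : ∀ v ∈ V, v ∉ S := by
      intro v hv
      rw [hV, Finset.mem_image] at hv
      obtain ⟨z, hz, rfl⟩ := hv
      exact (hf z (hZfin.mem_toFinset.mp hz)).1
    have hcover : Z ⊆ ⋃ v ∈ V, sv671 X γ A B {v} ∅ := by
      intro z hz
      have hzf := hf z hz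
      refine Set.mem_biUnion (x := f z) ?_ ?_
      · rw [hV]
        exact Finset.mem_coe.mpr (Finset.mem_image_of_mem f (hZfin.mem_toFinset.mpr hz))
      · exact ⟨hz.1.1, hz.1.2.1, by simpa using hzf.2, by simp⟩
    have hcard : Z.ncard ≤ ∑ v ∈ V, (sv671 X γ A B {v} ∅).ncard := by
      have hfinU : (⋃ v ∈ V, sv671 X γ A B {v} ∅).Finite :=
        Set.Finite.biUnion V.finite_toSet fun v _ => sv671_finite hfin B _ _
      refine (Set.ncard_le_ncard hcover hfinU).trans ?_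
      exact Finset.set_ncard_biUnion_le V _
    have hsumV : (∑ v ∈ V, ((sv671 X γ A B {v} ∅).ncard : ℝ)) ≤ ∑ v ∈ V, δ v * B ^ 2 :=
      Finset.sum_le_sum fun v _ => htail v B
    have hsumV2 : ∑ v ∈ V, δ v ≤ ∑' a : {x // x ∉ S}, δ a := by
      have hsum' : Summable fun a : {x // x ∉ S} => δ a := hδ.subtype _
      have h3 : ∑ v ∈ V, δ v = ∑ a ∈ V.subtype (fun x => x ∉ S), δ a := by
        rw [Finset.sum_subtype_eq_sum_filter]
        refine Finset.sum_congr ?_ fun _ _ => rfl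
        ext v
        simp only [Finset.mem_filter]
        constructor
        · intro hv
          exact ⟨hv, hVS v hv⟩
        · exact fun hv => hv.1
      rw [h3]
      exact hsum'.sum_le_tsum _ (fun a _ => hδ0 a)
    calc (Z.ncard : ℝ) ≤ ((∑ v ∈ V, (sv671 X γ A B {v} ∅).ncard : ℕ) : ℝ) := by
          exact_mod_cast hcard
      _ = ∑ v ∈ V, ((sv671 X γ A B {v} ∅).ncard : ℝ) := by push_cast; rfl
      _ ≤ ∑ v ∈ V, δ v * B ^ 2 := hsumV
      _ = (∑ v ∈ V, δ v) * B ^ 2 := by rw [Finset.sum_mul]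
      _ ≤ (∑' a : {x // x ∉ S}, δ a) * B ^ 2 :=
          mul_le_mul_of_nonneg_right hsumV2 hB2.le
  -- conclusion
  have hA : |((sv671 X γ A B ∅ S).ncard : ℝ) / B ^ 2 - (svAll671 X γ A B).ncard / B ^ 2|
      < ε / 3 := by
    rw [← sub_div, abs_div, abs_of_pos hB2, div_lt_iff₀ hB2]
    have h0 : 0 ≤ ((sv671 X γ A B ∅ S).ncard : ℝ) - (svAll671 X γ A B).ncard := by
      have : ((svAll671 X γ A B).ncard : ℝ) ≤ (sv671 X γ A B ∅ S).ncard := by exact_mod_cast hle
      linarith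
    rw [abs_of_nonneg h0]
    calc ((sv671 X γ A B ∅ S).ncard : ℝ) - (svAll671 X γ A B).ncard
        ≤ (∑' a : {x // x ∉ S}, δ a) * B ^ 2 := hdiff
      _ < ε / 3 * B ^ 2 := mul_lt_mul_of_pos_right hS1 hB2
  rw [Real.dist_eq] at h1 hS2 ⊢
  have habs : |((svAll671 X γ A B).ncard : ℝ) / B ^ 2 - α * L|
      ≤ |((svAll671 X γ A B).ncard : ℝ) / B ^ 2 - (sv671 X γ A B ∅ S).ncard / B ^ 2|
        + |((sv671 X γ A B ∅ S).ncard : ℝ) / B ^ 2 - α * ∏ v ∈ S, (1 - β v)|
        + |α * ∏ v ∈ S, (1 - β v) - α * L| := by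
    have := abs_add_three
      (((svAll671 X γ A B).ncard : ℝ) / B ^ 2 - (sv671 X γ A B ∅ S).ncard / B ^ 2)
      (((sv671 X γ A B ∅ S).ncard : ℝ) / B ^ 2 - α * ∏ v ∈ S, (1 - β v))
      (α * ∏ v ∈ S, (1 - β v) - α * L)
    calc |((svAll671 X γ A B).ncard : ℝ) / B ^ 2 - α * L|
        = |(((svAll671 X γ A B).ncard : ℝ) / B ^ 2 - (sv671 X γ A B ∅ S).ncard / B ^ 2)
          + (((sv671 X γ A B ∅ S).ncard : ℝ) / B ^ 2 - α * ∏ v ∈ S, (1 - β v))
          + (α * ∏ v ∈ S, (1 - β v) - α * L)| := by ring_nf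
      _ ≤ _ := this
  rw [abs_sub_comm] at hA
  linarith

end Fermat.Agent.LT.T7.H671
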