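import Mathlib
import Fermat.Agent.LT.T7.H671.LimSpec
import Fermat.Agent.LT.T7.H671.LimBasic
import Fermat.Agent.LT.T7.H671.Sieve

/-!
# Row LT, tower T7, leaf `CountLimC`: the node `PrimC` (single class) (helper671)

OFF-MAIN.  No `sorry`, nothing assumed.

`primC_of671 : CovolC K → LocalIdeleC K → SieveIdC K → TailC K → PlaceSumC K → PrimC K`:
the sieve (`Sieve.lean`) applied to the lattices `latG671 (h · E_T⁻¹)`, counted in the cone by
`tendsto_card_pairCone671` (`ConeCount.lean`), with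
`κ₀ = vol(body) / (c₀ N𝔪) · ∏_{v ∣ 𝔪} (1 - N v⁻¹) ∏_{v ∤ 𝔪} (1 - N v⁻²)`.
-/

set_option autoImplicit false

open AutomorphicForm IsDedekindDomain NumberField Filter Topology MeasureTheory
open NumberField.mixedEmbedding NumberField.InfinitePlace Module
open scoped Pointwise

noncomputable section

namespace Fermat.Agent.LT.T7.H671

open Fermat.Agent.LT.H556 Fermat.Agent.LT.H556.A0 Fermat.Agent.LT.T7 Fermat.Agent.LT.T7.Rigid

variable {K : Type} [Field K] [NumberField K]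

/-! ## Finiteness -/

theorem coneLe_subset671 {B : ℝ} (hB : 0 < B) :
    {p : Pair671 K | p ∈ pairCone671 K ∧ pairGauge671 p ≤ B}
      ⊆ (B ^ ((finrank ℚ K : ℝ)⁻¹)) • pairBody671 K := by
  intro p hp
  have hd : 0 < finrank ℚ K := finrank_pos
  set t : ℝ := B ^ ((finrank ℚ K : ℝ)⁻¹) with ht
  have htpos : 0 < t := Real.rpow_pos_of_pos hB _
  have htd : t ^ finrank ℚ K = B := by
    have hd0 : ((finrank ℚ K : ℕ) : ℝ) ≠ 0 := by exact_mod_cast hd.ne'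
    rw [ht, ← Real.rpow_natCast, ← Real.rpow_mul hB.le, inv_mul_cancel₀ hd0, Real.rpow_one]
  refine ⟨t⁻¹ • p, ⟨smul_mem_pairCone671 hp.1 (inv_pos.mpr htpos), ?_⟩, ?_⟩
  · rw [pairGauge671_smul, abs_of_pos (inv_pos.mpr htpos), inv_pow, htd]
    have h1 : B⁻¹ * pairGauge671 p ≤ 1 := by
      rw [inv_mul_le_iff₀ hB, mul_one]
      exact hp.2
    have h0 : 0 ≤ B⁻¹ * pairGauge671 p := mul_nonneg (inv_pos.mpr hB).le (pairGauge671_nonneg p)
    exact pow_le_one₀ h0 h1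
  · show t • (t⁻¹ • p) = p
    rw [smul_smul, mul_inv_cancel₀ htpos.ne', one_smul]

open scoped Classical in
theorem coneLe_isBounded671 (B : ℝ) :
    Bornology.IsBounded {p : Pair671 K | p ∈ pairCone671 K ∧ pairGauge671 p ≤ B} := by
  rcases le_or_gt B 0 with hB | hB
  · have : {p : Pair671 K | p ∈ pairCone671 K ∧ pairGauge671 p ≤ B} = ∅ := by
      ext p
      simp only [Set.mem_ofPred_eq, Set.mem_empty_iff_false, iff_false, not_and, not_le]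
      intro hp
      have h1 := pairGauge671_ne_zero_of_mem_cone hp
      have h2 := pairGauge671_nonneg p
      exact lt_of_le_of_lt hB (lt_of_le_of_ne h2 (Ne.symm h1))
    rw [this]
    exact Bornology.isBounded_empty
  · have h1 : Bornology.IsBounded ((B ^ ((finrank ℚ K : ℝ)⁻¹)) • pairBody671 K) :=
      (isBounded_pairBody671 K).smul₀ (B ^ ((finrank ℚ K : ℝ)⁻¹))
    exact h1.subset (coneLe_subset671 hB)

open scoped Classical in
theorem coneLat_finite671 (L : Submodule ℤ (Pair671 K)) [DiscreteTopology L] (B : ℝ) :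
    {p : Pair671 K | p ∈ pairCone671 K ∧ pairGauge671 p ≤ B ∧ p ∈ L}.Finite := by
  have hclosed : IsClosed (L : Set (Pair671 K)) := by
    have : IsClosed (L.toAddSubgroup : Set (Pair671 K)) := AddSubgroup.isClosed_of_discrete
    exact this
  have hdisc : IsDiscrete (L : Set (Pair671 K)) := by
    have h : DiscreteTopology (L : Set (Pair671 K)) := ‹DiscreteTopology L›
    exact ⟨h⟩
  refine (Metric.finite_isBounded_inter_isClosed hdisc (coneLe_isBounded671 B) hclosed).subset ?_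
  intro p hp
  exact ⟨⟨hp.1, hp.2.1⟩, hp.2.2⟩

/-! ## Norms of the sieve ideles -/

/-- `finNormI671` as a monoid homomorphism. -/
def finNormHom671 : (FiniteAdeleRing (𝓞 K) K)ˣ →* ℝ where
  toFun := finNormI671
  map_one' := finNormI671_one
  map_mul' := finNormI671_mul

theorem finNormI671_prod {ι : Type*} (s : Finset ι) (f : ι → (FiniteAdeleRing (𝓞 K) K)ˣ) :
    finNormI671 (∏ i ∈ s, f i) = ∏ i ∈ s, finNormI671 (f i) :=
  map_prod (finNormHom671 (K := K)) f s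

theorem finNormI671_unif {ϖ : HeightOneSpectrum (𝓞 K) → (FiniteAdeleRing (𝓞 K) K)ˣ}
    (hϖ : IsUnifFamily671 ϖ) (v : HeightOneSpectrum (𝓞 K)) :
    finNormI671 (ϖ v) = ((Ideal.absNorm v.asIdeal : ℕ) : ℝ)⁻¹ := by
  unfold finNormI671
  rw [finprod_eq_single _ v, (hϖ v).1]
  intro u hu
  rw [(hϖ v).2 u hu, norm_one]

theorem absNorm_pos671 (v : HeightOneSpectrum (𝓞 K)) :
    (1 : ℝ) < ((Ideal.absNorm v.asIdeal : ℕ) : ℝ) := by
  exact_mod_cast NumberField.HeightOneSpectrum.one_lt_absNorm v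

theorem betaS671_pos (𝔪 : Ideal (𝓞 K)) (v : HeightOneSpectrum (𝓞 K)) : 0 < betaS671 𝔪 v := by
  have h := absNorm_pos671 v
  unfold betaS671
  split_ifs <;> positivity

theorem betaS671_lt_one (𝔪 : Ideal (𝓞 K)) (v : HeightOneSpectrum (𝓞 K)) : betaS671 𝔪 v < 1 := by
  have h := absNorm_pos671 v
  have h1 : ((Ideal.absNorm v.asIdeal : ℕ) : ℝ)⁻¹ < 1 := inv_lt_one_of_one_lt₀ h
  have h0 : 0 < ((Ideal.absNorm v.asIdeal : ℕ) : ℝ)⁻¹ := by positivity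
  unfold betaS671
  split_ifs
  · exact h1
  · calc (((Ideal.absNorm v.asIdeal : ℕ) : ℝ)⁻¹) ^ 2
        < 1 ^ 2 := by gcongr
      _ = 1 := one_pow 2

theorem summable_betaS671 (hP : PlaceSumC K) {𝔪 : Ideal (𝓞 K)} (h𝔪 : 𝔪 ≠ ⊥) :
    Summable (betaS671 𝔪) := by
  classical
  have h2 : Summable fun v : HeightOneSpectrum (𝓞 K) => nv v ^ (-(2 : ℝ)) := hP 2 (by norm_num)
  have hfin : {v : HeightOneSpectrum (𝓞 K) | v.asIdeal ∣ 𝔪}.Finite := Ideal.finite_factors h𝔪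
  have hdiff : Summable fun v : HeightOneSpectrum (𝓞 K) =>
      betaS671 𝔪 v - nv v ^ (-(2 : ℝ)) := by
    refine summable_of_ne_finset_zero (s := hfin.toFinset) fun v hv => ?_
    rw [Set.Finite.mem_toFinset, Set.mem_ofPred_eq] at hv
    unfold betaS671 nv
    rw [if_neg hv, Real.rpow_neg (Nat.cast_nonneg _), Real.rpow_two, inv_pow, sub_self]
  have := hdiff.add h2
  refine this.congr fun v => ?_
  ring

theorem finNorm_sieve671 {𝔪 : Ideal (𝓞 K)} {μ : (FiniteAdeleRing (𝓞 K) K)ˣ}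
    {ϖ : HeightOneSpectrum (𝓞 K) → (FiniteAdeleRing (𝓞 K) K)ˣ}
    (hμ : IsLevelIdele671 𝔪 μ) (hϖ : IsUnifFamily671 ϖ)
    (T : Finset (HeightOneSpectrum (𝓞 K))) :
    finNormI671 (eA671 𝔪 μ ϖ T) * finNormI671 (eB671 ϖ T)
      = ((Ideal.absNorm 𝔪 : ℕ) : ℝ) * ∏ v ∈ T, (betaS671 𝔪 v)⁻¹ := by
  classical
  unfold eA671 eB671
  rw [finNormI671_mul, finNormI671_inv, hμ.2.2.2, inv_inv, finNormI671_prod, finNormI671_prod,
    Finset.prod_filter, mul_assoc, ← Finset.prod_mul_distrib]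
  congr 1
  refine Finset.prod_congr rfl fun v _ => ?_
  rw [finNormI671_inv, finNormI671_unif hϖ, inv_inv]
  unfold betaS671
  by_cases hv : v.asIdeal ∣ 𝔪
  · rw [if_neg (not_not.mpr hv), if_pos hv, one_mul, inv_inv]
  · rw [if_pos hv, if_neg hv, inv_pow, inv_inv, sq]

/-! ## The lattices of the sieve -/

theorem mem_latG_mul_dgF671 {h : G K} {a b : (FiniteAdeleRing (𝓞 K) K)ˣ} {p : Pair671 K} :
    p ∈ latG671 (h * dgF671 a b)
      ↔ ∃ ξ : Fin 2 → K, IsIntRow671 (rowDg671 a b (rowOf ξ h)) ∧ pairOf671 (rowOf ξ h) = p := by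
  rw [mem_latG671]
  constructor
  · rintro ⟨ξ, h1, h2⟩
    rw [rowOf_mul_dgF671] at h1
    rw [pairOf671_rowOf_mul_dgF] at h2
    exact ⟨ξ, h1, h2⟩
  · rintro ⟨ξ, h1, h2⟩
    refine ⟨ξ, ?_, ?_⟩
    · rw [rowOf_mul_dgF671]
      exact h1
    · rw [pairOf671_rowOf_mul_dgF]
      exact h2

/-- The sieve matrix `E_T⁻¹ diag(μ,1)⁻¹`. -/
def eMat671 (𝔪 : Ideal (𝓞 K)) (μ : (FiniteAdeleRing (𝓞 K) K)ˣ)
    (ϖ : HeightOneSpectrum (𝓞 K) → (FiniteAdeleRing (𝓞 K) K)ˣ)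
    (T : Finset (HeightOneSpectrum (𝓞 K))) : G K :=
  dgF671 (eA671 𝔪 μ ϖ T) (eB671 ϖ T)

section Sieve

variable {𝔪 : Ideal (𝓞 K)} {μ : (FiniteAdeleRing (𝓞 K) K)ˣ}
  {ϖ : HeightOneSpectrum (𝓞 K) → (FiniteAdeleRing (𝓞 K) K)ˣ}

theorem mem_latG_eMat_iff671 (hS : SieveIdC K) (h𝔪 : 𝔪 ≠ ⊥) (hμ : IsLevelIdele671 𝔪 μ)
    (hϖ : IsUnifFamily671 ϖ) (h : G K) (T : Finset (HeightOneSpectrum (𝓞 K))) (p : Pair671 K) :
    p ∈ latG671 (h * eMat671 𝔪 μ ϖ T)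
      ↔ p ∈ latG671 (h * eMat671 𝔪 μ ϖ ∅) ∧ ∀ v ∈ T, p ∈ latG671 (h * eMat671 𝔪 μ ϖ {v}) := by
  unfold eMat671
  simp only [mem_latG_mul_dgF671]
  constructor
  · rintro ⟨ξ, h1, h2⟩
    have := ((hS 𝔪 h𝔪 μ ϖ hμ hϖ (rowOf ξ h)).2 T).mp h1
    exact ⟨⟨ξ, this.1, h2⟩, fun v hv => ⟨ξ, this.2 v hv, h2⟩⟩
  · rintro ⟨⟨ξ, h1, h2⟩, h3⟩
    refine ⟨ξ, ((hS 𝔪 h𝔪 μ ϖ hμ hϖ (rowOf ξ h)).2 T).mpr ⟨h1, fun v hv => ?_⟩, h2⟩
    obtain ⟨ξ', h4, h5⟩ := h3 v hv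
    have : ξ' = ξ := pairOf_rowOf_injective671 h (h5.trans h2.symm)
    rw [← this]
    exact h4

theorem prim_iff_sieve671 (hS : SieveIdC K) (h𝔪 : 𝔪 ≠ ⊥) (hμ : IsLevelIdele671 𝔪 μ)
    (hϖ : IsUnifFamily671 ϖ) (h : G K) (p : Pair671 K) :
    (∃ ξ : Fin 2 → K, pairOf671 (rowOf ξ h) = p ∧ IsPrimRow671 (rowOf ξ h) ∧
        Cong671 𝔪 (rowOf ξ h))
      ↔ p ∈ latG671 (h * eMat671 𝔪 μ ϖ ∅) ∧ ∀ v, p ∉ latG671 (h * eMat671 𝔪 μ ϖ {v}) := by
  unfold eMat671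
  simp only [mem_latG_mul_dgF671]
  constructor
  · rintro ⟨ξ, h1, h2, h3⟩
    have hkey := (hS 𝔪 h𝔪 μ ϖ hμ hϖ (rowOf ξ h)).1.mp ⟨h2, h3⟩
    refine ⟨⟨ξ, hkey.1, h1⟩, fun v => ?_⟩
    rintro ⟨ξ', h4, h5⟩
    have hξ : ξ' = ξ := pairOf_rowOf_injective671 h (h5.trans h1.symm)
    rw [hξ] at h4
    exact hkey.2 v h4
  · rintro ⟨⟨ξ, h1, h2⟩, h3⟩
    have := (hS 𝔪 h𝔪 μ ϖ hμ hϖ (rowOf ξ h)).1.mpr ⟨h1, fun v hv => h3 v ⟨ξ, hv, h2⟩⟩
    exact ⟨ξ, h2, this.1, this.2⟩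

theorem eMat671_singleton_of_not_dvd {v : HeightOneSpectrum (𝓞 K)} (hv : ¬ v.asIdeal ∣ 𝔪) :
    eMat671 𝔪 μ ϖ {v} = eMat671 𝔪 μ ϖ ∅ * scF671 (ϖ v)⁻¹ := by
  classical
  unfold eMat671 scF671
  rw [dgF671_mul]
  congr 1
  · unfold eA671
    rw [Finset.filter_singleton, if_pos hv, Finset.prod_singleton, Finset.filter_empty,
      Finset.prod_empty, mul_one]
  · unfold eB671
    rw [Finset.prod_singleton, Finset.prod_empty, one_mul]

end Sieve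

/-! ## The node -/

theorem ncard_coneLat_eq671 (B : ℝ) (g : G K) :
    (Nat.card {x : Pair671 K // x ∈ pairCone671 K ∧ pairGauge671 x ≤ B ∧ x ∈ latG671 g} : ℝ)
      = ((coneLat671 B g).ncard : ℝ) := by
  rw [← Nat.card_coe_set_eq]
  rfl

open scoped Classical in
/-- **NODE PRIM.** -/
theorem primC_of671 (hC : CovolC K) (hLI : LocalIdeleC K) (hS : SieveIdC K) (hT : TailC K)
    (hP : PlaceSumC K) : PrimC K := by
  intro 𝔪 h𝔪
  obtain ⟨μ, hμ⟩ := hLI.1 𝔪 h𝔪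
  obtain ⟨ϖ, hϖ⟩ := hLI.2
  obtain ⟨c₀, hc₀, hcov⟩ := hC
  have hβ0 : ∀ v, 0 ≤ betaS671 𝔪 v := fun v => (betaS671_pos 𝔪 v).le
  have hβ1 : ∀ v, betaS671 𝔪 v < 1 := betaS671_lt_one 𝔪
  have hβs := summable_betaS671 hP h𝔪
  obtain ⟨L, -, hL⟩ := exists_prod_limit671 hβ0 (fun v => (hβ1 v).le)
  have hLpos : 0 < L := prod_limit_pos671 hβ0 hβ1 hβs hL
  set V : ℝ := (volume (pairBody671 K)).toReal with hVdef
  have hV : 0 < V :=
    ENNReal.toReal_pos (volume_pairBody671_pos K).ne' (volume_pairBody671_lt_top K).ne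
  have hN : (0 : ℝ) < ((Ideal.absNorm 𝔪 : ℕ) : ℝ) := by
    have : Ideal.absNorm 𝔪 ≠ 0 := fun h0 => h𝔪 (Ideal.absNorm_eq_zero_iff.mp h0)
    exact_mod_cast Nat.pos_of_ne_zero this
  refine ⟨V / (c₀ * ((Ideal.absNorm 𝔪 : ℕ) : ℝ)) * L, by positivity, fun h => ?_⟩
  set D : ℝ := Fermat.Agent.LT.T5.adNorm (Matrix.det (h : Matrix (Fin 2) (Fin 2) (Adl K)))
    with hDdef
  have hD : 0 < D := adNorm_det_pos671 h
  -- the sieve data
  set X : Set (Pair671 K) := {p | p ∈ pairCone671 K ∧ p ∈ latG671 (h * eMat671 𝔪 μ ϖ ∅)} with hX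
  set A : HeightOneSpectrum (𝓞 K) → Set (Pair671 K) :=
    fun v => (latG671 (h * eMat671 𝔪 μ ϖ {v}) : Set (Pair671 K)) with hA
  have hsv : ∀ (B : ℝ) (T : Finset (HeightOneSpectrum (𝓞 K))),
      sv671 X pairGauge671 A B T ∅ = coneLat671 B (h * eMat671 𝔪 μ ϖ T) := by
    intro B T
    ext p
    unfold sv671 coneLat671
    simp only [Set.mem_ofPred_eq, hX, hA, Finset.notMem_empty, false_imp_iff, implies_true,
      and_true, SetLike.mem_coe]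
    rw [mem_latG_eMat_iff671 hS h𝔪 hμ hϖ h T p]
    tauto
  have hall : ∀ B : ℝ, svAll671 X pairGauge671 A B = primSet671 𝔪 B h := by
    intro B
    ext p
    unfold svAll671 primSet671
    simp only [Set.mem_ofPred_eq, hX, hA, SetLike.mem_coe]
    rw [prim_iff_sieve671 hS h𝔪 hμ hϖ h p]
    tauto
  have hfinT : ∀ (B : ℝ) (T : Finset (HeightOneSpectrum (𝓞 K))),
      (coneLat671 B (h * eMat671 𝔪 μ ϖ T)).Finite := by
    intro B T
    obtain ⟨hd, -, -⟩ := hcov (h * eMat671 𝔪 μ ϖ T)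
    exact coneLat_finite671 (latG671 (h * eMat671 𝔪 μ ϖ T)) B
  have hfin : ∀ B : ℝ, {x | x ∈ X ∧ pairGauge671 x ≤ B}.Finite := by
    intro B
    refine (hfinT B ∅).subset ?_
    intro p hp
    exact ⟨hp.1.1, hp.2, hp.1.2⟩
  -- the limits
  have hlim : ∀ T : Finset (HeightOneSpectrum (𝓞 K)), Tendsto
      (fun B : ℝ => ((sv671 X pairGauge671 A B T ∅).ncard : ℝ) / B ^ 2) atTop
      (𝓝 (V / (c₀ * ((Ideal.absNorm 𝔪 : ℕ) : ℝ) * D) * ∏ v ∈ T, betaS671 𝔪 v)) := by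
    intro T
    obtain ⟨hd, hz, hcovT⟩ := hcov (h * eMat671 𝔪 μ ϖ T)
    have hmain := tendsto_card_pairCone671 (latG671 (h * eMat671 𝔪 μ ϖ T))
    simp only [ncard_coneLat_eq671] at hmain
    simp only [hsv]
    have hval : (volume (pairBody671 K)).toReal
          / ZLattice.covolume (latG671 (h * eMat671 𝔪 μ ϖ T)) volume
        = V / (c₀ * ((Ideal.absNorm 𝔪 : ℕ) : ℝ) * D) * ∏ v ∈ T, betaS671 𝔪 v := by
      rw [hcovT]
      unfold eMat671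
      rw [adNorm_det_mul_dgF671, mul_assoc D, finNorm_sieve671 hμ hϖ T, Finset.prod_inv_distrib]
      have hprod : 0 < ∏ v ∈ T, betaS671 𝔪 v := Finset.prod_pos fun v _ => betaS671_pos 𝔪 v
      rw [← hVdef]
      field_simp
    rw [hval] at hmain
    exact hmain
  -- the tail
  obtain ⟨C, hCb⟩ := hT (h * eMat671 𝔪 μ ϖ ∅)
  have hC0 : 0 ≤ C := by
    have h1 := hCb 1 1
    rw [finNormI671_one] at h1
    have h2 : (0 : ℝ) ≤ ((coneLat671 1 (h * eMat671 𝔪 μ ϖ ∅ * scF671 (1 : _)⁻¹)).ncard : ℝ) :=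
      Nat.cast_nonneg _
    linarith
  set δ : HeightOneSpectrum (𝓞 K) → ℝ :=
    fun v => if v.asIdeal ∣ 𝔪 then C else C * betaS671 𝔪 v with hδdef
  have hδ0 : ∀ v, 0 ≤ δ v := by
    intro v
    simp only [hδdef]
    split_ifs
    · exact hC0
    · exact mul_nonneg hC0 (hβ0 v)
  have hδ : Summable δ := by
    have hfinm : {v : HeightOneSpectrum (𝓞 K) | v.asIdeal ∣ 𝔪}.Finite := Ideal.finite_factors h𝔪
    have hdiff : Summable fun v : HeightOneSpectrum (𝓞 K) => δ v - C * betaS671 𝔪 v := by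
      refine summable_of_ne_finset_zero (s := hfinm.toFinset) fun v hv => ?_
      rw [Set.Finite.mem_toFinset, Set.mem_ofPred_eq] at hv
      simp only [hδdef]
      rw [if_neg hv, sub_self]
    have := hdiff.add (hβs.mul_left C)
    refine this.congr fun v => ?_
    ring
  have htail : ∀ (v : HeightOneSpectrum (𝓞 K)) (B : ℝ),
      ((sv671 X pairGauge671 A B {v} ∅).ncard : ℝ) ≤ δ v * B ^ 2 := by
    intro v B
    rw [hsv]
    by_cases hv : v.asIdeal ∣ 𝔪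
    · have hsub : coneLat671 B (h * eMat671 𝔪 μ ϖ {v}) ⊆ coneLat671 B (h * eMat671 𝔪 μ ϖ ∅) := by
        intro p hp
        exact ⟨hp.1, hp.2.1, ((mem_latG_eMat_iff671 hS h𝔪 hμ hϖ h {v} p).mp hp.2.2).1⟩
      have h1 : ((coneLat671 B (h * eMat671 𝔪 μ ϖ {v})).ncard : ℝ)
          ≤ ((coneLat671 B (h * eMat671 𝔪 μ ϖ ∅)).ncard : ℝ) := by
        exact_mod_cast Set.ncard_le_ncard hsub (hfinT B ∅)
      have h2 := hCb 1 B
      rw [inv_one, scF671_one, mul_one, finNormI671_one] at h2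
      simp only [hδdef]
      rw [if_pos hv]
      calc ((coneLat671 B (h * eMat671 𝔪 μ ϖ {v})).ncard : ℝ)
          ≤ ((coneLat671 B (h * eMat671 𝔪 μ ϖ ∅)).ncard : ℝ) := h1
        _ ≤ C * B ^ 2 * 1 ^ 2 := h2
        _ = C * B ^ 2 := by ring
    · have h2 := hCb (ϖ v) B
      rw [mul_assoc, ← eMat671_singleton_of_not_dvd hv, finNormI671_unif hϖ] at h2
      simp only [hδdef]
      rw [if_neg hv]
      unfold betaS671
      rw [if_neg hv]
      calc ((coneLat671 B (h * eMat671 𝔪 μ ϖ {v})).ncard : ℝ)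
          ≤ C * B ^ 2 * (((Ideal.absNorm v.asIdeal : ℕ) : ℝ)⁻¹) ^ 2 := h2
        _ = C * (((Ideal.absNorm v.asIdeal : ℕ) : ℝ)⁻¹) ^ 2 * B ^ 2 := by ring
  have hres := sieve_tendsto671 hfin hlim hδ hδ0 htail hL
  simp only [hall] at hres
  have hfinal : V / (c₀ * ((Ideal.absNorm 𝔪 : ℕ) : ℝ) * D) * L
      = V / (c₀ * ((Ideal.absNorm 𝔪 : ℕ) : ℝ)) * L / D := by
    field_simp
  rw [hfinal] at hres
  exact hres

end Fermat.Agent.LT.T7.H671

end
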