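import Mathlib
import Fermat.Agent.LT.T7.H671.LimSpec
import Fermat.Agent.LT.T7.H671.LimBasic

/-!
# Row LT, tower T7, leaf `CountLimC`: the TOP reduction (helper671)

OFF-MAIN.  No `sorry`, nothing assumed.

`countLimC_of671 : IdeleClassC K → ClassDecC K → PrimC K → CountLimC K`, with
`κ = (number of idele classes) · κ₀ / torsionOrder K`.
-/

set_option autoImplicit false

open AutomorphicForm IsDedekindDomain NumberField Filter Topology MeasureTheory
open NumberField.mixedEmbedding NumberField.InfinitePlace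

noncomputable section

namespace Fermat.Agent.LT.T7.H671

open Fermat.Agent.LT.H556 Fermat.Agent.LT.H556.A0 Fermat.Agent.LT.T7 Fermat.Agent.LT.T7.Rigid

variable {K : Type} [Field K] [NumberField K]

theorem rowNorm_nonneg671 (r : Fin 2 → Adl K) : 0 ≤ rowNorm r := by
  unfold rowNorm
  refine mul_nonneg (Finset.prod_nonneg fun w _ => ?_) (finprod_nonneg fun v => ?_)
  · exact Real.rpow_nonneg (by positivity) _
  · exact le_max_of_le_left (norm_nonneg _)

/-- The counting set in terms of `B = √(‖det g‖ / Y)`. -/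
theorem cntSet_eq_cntB671 (𝔪 : Ideal (𝓞 K)) (g : G K) {Y : ℝ} (hY : 0 < Y) :
    cntSet 𝔪 Y g = cntB671 𝔪
      (Real.sqrt (Fermat.Agent.LT.T5.adNorm
        (Matrix.det (g : Matrix (Fin 2) (Fin 2) (Adl K))) / Y)) g := by
  ext x
  unfold cntSet cntB671 Cong671
  simp only [Set.mem_ofPred_eq]
  refine and_congr_left fun _ => ?_
  rw [Real.le_sqrt (rowNorm_nonneg671 _) (div_nonneg (adNorm_det_pos671 g).le hY.le),
    le_div_iff₀ hY]

theorem cnt_eq_ncard_cntB671 (𝔪 : Ideal (𝓞 K)) (g : G K) {Y : ℝ} (hY : 0 < Y) :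
    cnt 𝔪 Y g = (cntB671 𝔪
      (Real.sqrt (Fermat.Agent.LT.T5.adNorm
        (Matrix.det (g : Matrix (Fin 2) (Fin 2) (Adl K))) / Y)) g).ncard := by
  unfold cnt
  rw [cntSet_eq_cntB671 𝔪 g hY, Nat.card_coe_set_eq]

theorem tendsto_sqrt_div671 {D : ℝ} (hD : 0 < D) :
    Tendsto (fun Y : ℝ => Real.sqrt (D / Y)) (𝓝[>] (0 : ℝ)) atTop := by
  have h1 : Tendsto (fun Y : ℝ => D * Y⁻¹) (𝓝[>] (0 : ℝ)) atTop :=
    Tendsto.const_mul_atTop hD tendsto_inv_nhdsGT_zero
  have h2 := Real.tendsto_sqrt_atTop.comp h1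
  refine h2.congr fun Y => ?_
  simp [div_eq_mul_inv]

/-- **TOP.**  `CountLimC` from the idele classes, the class decomposition and the single class
limit. -/
theorem countLimC_of671 (hI : IdeleClassC K) (hD : ClassDecC K) (hP : PrimC K) : CountLimC K := by
  intro _ 𝔪 h𝔪
  obtain ⟨n, c, hc⟩ := hI
  obtain ⟨κ₀, hκ₀, hlim⟩ := hP 𝔪 h𝔪
  have hn : 0 < n := by
    obtain ⟨i, -⟩ := hc.1 1
    exact Fin.pos i
  have hw : (0 : ℝ) < (NumberField.Units.torsionOrder K : ℝ) := by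
    exact_mod_cast NumberField.Units.torsionOrder_pos K
  refine ⟨(n : ℝ) * κ₀ / (NumberField.Units.torsionOrder K : ℝ), by positivity, fun g => ?_⟩
  set D : ℝ := Fermat.Agent.LT.T5.adNorm (Matrix.det (g : Matrix (Fin 2) (Fin 2) (Adl K)))
    with hDdef
  have hDpos : 0 < D := adNorm_det_pos671 g
  set Bf : ℝ → ℝ := fun Y => Real.sqrt (D / Y) with hBf
  have hBtend : Tendsto Bf (𝓝[>] (0 : ℝ)) atTop := tendsto_sqrt_div671 hDpos
  -- the terms
  have hterm : ∀ i : Fin n, Tendsto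
      (fun Y : ℝ => ((primSet671 𝔪 (Bf Y * finNormI671 (c i)) (g * scF671 (c i))).ncard : ℝ)
        / (Bf Y * finNormI671 (c i)) ^ 2) (𝓝[>] (0 : ℝ))
      (𝓝 (κ₀ / (D * finNormI671 (c i) ^ 2))) := by
    intro i
    have h1 : Tendsto (fun Y : ℝ => Bf Y * finNormI671 (c i)) (𝓝[>] (0 : ℝ)) atTop :=
      Tendsto.atTop_mul_const (finNormI671_pos (c i)) hBtend
    have h2 := (hlim (g * scF671 (c i))).comp h1
    have h3 : Fermat.Agent.LT.T5.adNorm
        (Matrix.det ((g * scF671 (c i) : G K) : Matrix (Fin 2) (Fin 2) (Adl K)))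
        = D * finNormI671 (c i) ^ 2 := by
      unfold scF671
      rw [adNorm_det_mul_dgF671]
      ring
    rw [h3] at h2
    exact h2
  -- the sum
  have hsum : Tendsto (fun Y : ℝ => D / (NumberField.Units.torsionOrder K : ℝ) *
      ∑ i : Fin n, finNormI671 (c i) ^ 2 *
        (((primSet671 𝔪 (Bf Y * finNormI671 (c i)) (g * scF671 (c i))).ncard : ℝ)
          / (Bf Y * finNormI671 (c i)) ^ 2)) (𝓝[>] (0 : ℝ))
      (𝓝 (D / (NumberField.Units.torsionOrder K : ℝ) *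
        ∑ i : Fin n, finNormI671 (c i) ^ 2 * (κ₀ / (D * finNormI671 (c i) ^ 2)))) :=
    (tendsto_finsetSum _ fun i _ => (hterm i).const_mul _).const_mul _
  have hval : D / (NumberField.Units.torsionOrder K : ℝ) *
        ∑ i : Fin n, finNormI671 (c i) ^ 2 * (κ₀ / (D * finNormI671 (c i) ^ 2))
      = (n : ℝ) * κ₀ / (NumberField.Units.torsionOrder K : ℝ) := by
    have : ∀ i : Fin n, finNormI671 (c i) ^ 2 * (κ₀ / (D * finNormI671 (c i) ^ 2)) = κ₀ / D := by
      intro i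
      have hpos := finNormI671_pos (c i)
      field_simp
    simp only [this, Finset.sum_const, Finset.card_univ, Fintype.card_fin, nsmul_eq_mul]
    field_simp
  rw [hval] at hsum
  refine hsum.congr' ?_
  have hmem : ∀ᶠ Y : ℝ in 𝓝[>] (0 : ℝ), 0 < Y := self_mem_nhdsWithin
  refine hmem.mono fun Y hY => ?_
  have hBpos : 0 < Bf Y := Real.sqrt_pos.mpr (div_pos hDpos hY)
  have hB2 : Bf Y ^ 2 = D / Y := Real.sq_sqrt (div_pos hDpos hY).le
  have hdec := hD n c hc 𝔪 g (Bf Y) hBpos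
  beta_reduce
  rw [cnt_eq_ncard_cntB671 𝔪 g hY]
  have hcnt : ((cntB671 𝔪 (Bf Y) g).ncard : ℝ)
      = (∑ i : Fin n, ((primSet671 𝔪 (Bf Y * finNormI671 (c i)) (g * scF671 (c i))).ncard : ℝ))
        / (NumberField.Units.torsionOrder K : ℝ) := by
    rw [← hdec]
    field_simp
  show _ = Y * ((cntB671 𝔪 (Bf Y) g).ncard : ℝ)
  rw [hcnt]
  have hY0 : Y ≠ 0 := hY.ne'
  have hD0 : D ≠ 0 := hDpos.ne'
  have hterm2 : ∀ i : Fin n, finNormI671 (c i) ^ 2 *
        (((primSet671 𝔪 (Bf Y * finNormI671 (c i)) (g * scF671 (c i))).ncard : ℝ)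
          / (Bf Y * finNormI671 (c i)) ^ 2)
      = ((primSet671 𝔪 (Bf Y * finNormI671 (c i)) (g * scF671 (c i))).ncard : ℝ) / Bf Y ^ 2 := by
    intro i
    have hpos := finNormI671_pos (c i)
    field_simp
  simp only [hterm2]
  rw [← Finset.sum_div, hB2]
  field_simp

end Fermat.Agent.LT.T7.H671

end
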