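import Mathlib
import Fermat.Agent.LT.T7.H671.LimTop
import Fermat.Agent.LT.T7.H671.LimPrim

/-!
# Row LT, tower T7, leaf `CountLimC`: assembly from the leaves of `LimSpec.lean` (helper671)

OFF-MAIN.  No `sorry`, nothing assumed.

`countLimC_of_leaves671 : IdeleClassC K → ClassDecC K → CovolC K → LocalIdeleC K → SieveIdC K →
TailC K → PlaceSumC K → CountLimC K`.
-/

set_option autoImplicit false

open AutomorphicForm IsDedekindDomain NumberField Filter Topology MeasureTheory

noncomputable section

namespace Fermat.Agent.LT.T7.H671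

open Fermat.Agent.LT.H556 Fermat.Agent.LT.H556.A0 Fermat.Agent.LT.T7 Fermat.Agent.LT.T7.Rigid

variable {K : Type} [Field K] [NumberField K]

/-- **ASSEMBLY.**  `CountLimC` from the leaves. -/
theorem countLimC_of_leaves671 (hI : IdeleClassC K) (hCD : ClassDecC K) (hC : CovolC K)
    (hLI : LocalIdeleC K) (hS : SieveIdC K) (hT : TailC K) (hP : PlaceSumC K) : CountLimC K :=
  countLimC_of671 hI hCD (primC_of671 hC hLI hS hT hP)

end Fermat.Agent.LT.T7.H671

end
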