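import Mathlib
import Fermat.Agent.LT.T7.H671.LimAsm
import Fermat.Agent.LT.T7.H502.IdeleClass
import Fermat.Agent.LT.T7.H139.Content
import Fermat.Agent.LT.T7.H753.UnitsScale
import Fermat.Agent.LT.T7.H250.ClassDec
import Fermat.Agent.LT.T7.H267.SieveId
import Fermat.Agent.LT.T7.H954.PlaceSum
import Fermat.Agent.LT.T7.H227.CovolClosed
import Fermat.Agent.LT.T7.H724.CountMeas
import Fermat.Agent.LT.T7.H263.CountBdd
import Fermat.Agent.LT.T1.H309.AdNorm
import Fermat.Agent.LT.T7.H71.Tail
import Fermat.Agent.LT.T7.H671.LocalIdele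

/-!
# Row LT, tower T7, node T7.14 `RigidC`, leaf `CountC` (registry row 1519): integration (helper671)

OFF-MAIN.  No `sorry`, nothing assumed.

**CLOSED**: `countC_closed671 K : Rigid.CountC K` and `countLimC_closed671 K : CountLimC K`,
UNCONDITIONAL, for EVERY number field `K`.  Intermediate statements:

* `countLimC_of_two671 : LocalIdeleC K → TailC K → CountLimC K`,
* `countC_of_two671    : LocalIdeleC K → TailC K → Rigid.CountC K`,
* `tailC_closed671 K   : TailC K` (helper71),
* `countLimC_of_one671 : LocalIdeleC K → CountLimC K`,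
* `countC_of_one671    : LocalIdeleC K → Rigid.CountC K`.

Inputs (all vendored byte-identical from the owners' branches):
`ideleClassC502` (helper502), `contentC139` (helper139), `unitsC753`, `scaleC753` (helper753),
`classDecC_of250` (helper250), `sieveIdC267` (helper267), `placeSumC954` (helper954),
`covolC227` (helper227, with helpers 600, 236, 138, 404), `countMeasC724` (helper724),
`countBddC263` (helper263), `adNormC309` (helper309, tower T1), `tailC_of71` (helper71).
-/

set_option autoImplicit false

open AutomorphicForm IsDedekindDomain NumberField Filter Topology MeasureTheory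

noncomputable section

namespace Fermat.Agent.LT.T7.H671

open Fermat.Agent.LT.H556 Fermat.Agent.LT.H556.A0 Fermat.Agent.LT.T7 Fermat.Agent.LT.T7.Rigid

variable (K : Type) [Field K] [NumberField K]

/-- `ClassDecC K` for a totally complex field. -/
theorem classDecC_closed671 (hK : TotCplx K) : ClassDecC K :=
  Fermat.Agent.LT.T7.H250.classDecC_of250 (Fermat.Agent.LT.T7.H139.contentC139 K)
    (Fermat.Agent.LT.T7.H753.unitsC753 K) (Fermat.Agent.LT.T7.H753.scaleC753 K)
    (Fermat.Agent.LT.T1.H309.adNormC309 K) hK

variable {K}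

/-- `CountLimC K` modulo `LocalIdeleC K` and `TailC K`. -/
theorem countLimC_of_two671 (hLI : LocalIdeleC K) (hT : TailC K) : CountLimC K := fun hK =>
  countLimC_of_leaves671 (Fermat.Agent.LT.T7.H502.ideleClassC502 K) (classDecC_closed671 K hK)
    (Fermat.Agent.LT.T7.H227.covolC227 K) hLI (Fermat.Agent.LT.T7.H671.H267.sieveIdC267 K) hT
    (Fermat.Agent.LT.T7.H954.placeSumC954 K) hK

/-- `Rigid.CountC K` modulo `LocalIdeleC K` and `TailC K`. -/
theorem countC_of_two671 (hLI : LocalIdeleC K) (hT : TailC K) : CountC K :=
  countC_of671 (Fermat.Agent.LT.T7.H724.countMeasC724 (K := K)) (countLimC_of_two671 hLI hT)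
    (Fermat.Agent.LT.T7.H263.countBddC263 K)

variable (K) in
/-- `TailC K`, closed (helper71). -/
theorem tailC_closed671 : TailC K :=
  Fermat.Agent.LT.T7.H71.tailC_of71 (Fermat.Agent.LT.T7.H502.ideleClassC502 K)
    (Fermat.Agent.LT.T7.H227.covolC227 K)

/-- `CountLimC K` modulo `LocalIdeleC K`. -/
theorem countLimC_of_one671 (hLI : LocalIdeleC K) : CountLimC K :=
  countLimC_of_two671 hLI (tailC_closed671 K)

/-- `Rigid.CountC K` modulo `LocalIdeleC K`. -/
theorem countC_of_one671 (hLI : LocalIdeleC K) : CountC K :=
  countC_of_two671 hLI (tailC_closed671 K)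

variable (K) in
/-- **T7.14.3 `CountLimC`, CLOSED**: every number field. -/
theorem countLimC_closed671 : CountLimC K :=
  countLimC_of_one671 (localIdeleC671 K)

variable (K) in
/-- **T7.14.3 LEAF `CountC` (registry row 1519), CLOSED**: every number field. -/
theorem countC_closed671 : CountC K :=
  countC_of_one671 (localIdeleC671 K)

end Fermat.Agent.LT.T7.H671

end
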