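import Mathlib
import Fermat.Agent.LT.T7.H671.LimSpec
import Fermat.Agent.LT.T7.H671.LimBasic
import Fermat.Agent.LT.T7.H671.LimPrim
import Fermat.Agent.LT.T1.H671.HaarFin

/-!
# Row LT, tower T7, leaf `CountLimC`: the leaf `LocalIdeleC` (registry row 1959) (helper671, spare)

OFF-MAIN.  No `sorry`, nothing assumed.

`localIdeleC671 K : LocalIdeleC K` for every number field `K`:

* uniformiser ideles `unifIdl671 v` (a uniformiser at `v`, `1` elsewhere);
* for `𝔪 ≠ 0` the idele `levelIdl671 𝔪 = ∏_{v ∣ 𝔪} ϖ_v ^ e_v`, `e_v = multiplicity v 𝔪`: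
  `𝔪 𝒪_v = {t : ‖t‖ ≤ ‖μ_v‖}` at every `v`, and `∏_v ‖μ_v‖ = (N𝔪)⁻¹`.

The density lemmas `intRange_dense671`, `mul_mem_idealClosure671` are those of helper437
(`LT/T2/H187/LevelNhds.lean`), copied with a new suffix to keep the closure small.
-/

set_option autoImplicit false

open AutomorphicForm IsDedekindDomain NumberField Filter Topology MeasureTheory

noncomputable section

namespace Fermat.Agent.LT.T7.H671

open Fermat.Agent.LT.H556 Fermat.Agent.LT.H556.A0 Fermat.Agent.LT.T7 Fermat.Agent.LT.T7.Rigid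
open Fermat.Agent.LT.T1.H671

variable {K : Type} [Field K] [NumberField K]

/-! ## Density of `𝓞 K` in `𝒪_v` (helper437) -/

/-- `𝓞 K` is dense in `𝒪_v`. -/
theorem intRange_dense671 (v : HeightOneSpectrum (𝓞 K)) {y : v.adicCompletion K}
    (hy : Valued.v y ≤ 1) :
    y ∈ closure (Set.range
      (fun a : 𝓞 K => algebraMap K (v.adicCompletion K) (algebraMap (𝓞 K) K a))) := by
  rw [mem_closure_iff_nhds]
  intro t ht
  obtain ⟨γ, hγ⟩ := Valued.mem_nhds.1 ht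
  have hne : MonoidWithZeroHom.ValueGroup₀.embedding γ.1 ≠ 0 := by
    intro h0
    simp at h0
  have hB : {z : v.adicCompletion K | Valued.v.restrict (z - y) < γ.1} ∈ 𝓝 y :=
    Valued.mem_nhds.2 ⟨γ, subset_rfl⟩
  have hO : ((v.adicCompletionIntegers K : Set (v.adicCompletion K))) ∈ 𝓝 y :=
    (Valued.isOpen_valuationSubring _).mem_nhds hy
  obtain ⟨z, ⟨hz1, hz2⟩, k, rfl⟩ :=
    mem_closure_iff_nhds.1 ((HeightOneSpectrum.denseRange_algebraMap K v) y) _
      (Filter.inter_mem hB hO)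
  have hk1 : v.valuation K k ≤ 1 := by
    rw [← HeightOneSpectrum.valuedAdicCompletion_eq_valuation']
    exact hz2
  have hk2 : Valued.v (algebraMap K (v.adicCompletion K) k - y)
      < MonoidWithZeroHom.ValueGroup₀.embedding γ.1 :=
    (Valuation.restrict_lt_iff_lt_embedding _).1 hz1
  obtain ⟨a, ha⟩ := v.exists_valuation_sub_lt_of_integer hk1 (Units.mk0 _ hne)
  refine ⟨algebraMap K (v.adicCompletion K) (algebraMap (𝓞 K) K a), hγ ?_, ⟨a, rfl⟩⟩
  show Valued.v.restrict (algebraMap K (v.adicCompletion K) (algebraMap (𝓞 K) K a) - y) < γ.1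
  rw [Valuation.restrict_lt_iff_lt_embedding]
  have e : algebraMap K (v.adicCompletion K) (algebraMap (𝓞 K) K a) - y
      = algebraMap K (v.adicCompletion K) (algebraMap (𝓞 K) K a - k)
        + (algebraMap K (v.adicCompletion K) k - y) := by
    rw [map_sub]; ring
  rw [e]
  refine lt_of_le_of_lt (Valuation.map_add _ _ _) (max_lt ?_ hk2)
  have := HeightOneSpectrum.valuedAdicCompletion_eq_valuation' v
    (algebraMap (𝓞 K) K a - k)
  rw [Units.val_mk0] at ha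
  exact this ▸ ha

/-- `d 𝒪_v ⊆ 𝔫 𝒪_v` for `d ∈ 𝔫`. -/
theorem mul_mem_idealClosure671 (v : HeightOneSpectrum (𝓞 K)) (𝔫 : Ideal (𝓞 K)) {d : 𝓞 K}
    (hd : d ∈ 𝔫) {y : v.adicCompletion K} (hy : Valued.v y ≤ 1) :
    algebraMap K (v.adicCompletion K) (algebraMap (𝓞 K) K d) * y ∈ idealClosure 𝔫 v := by
  have h1 := Set.mem_image_of_mem
    (fun z : v.adicCompletion K => algebraMap K (v.adicCompletion K) (algebraMap (𝓞 K) K d) * z)
    (intRange_dense671 v hy)
  have h2 := image_closure_subset_closure_image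
    (f := fun z : v.adicCompletion K =>
      algebraMap K (v.adicCompletion K) (algebraMap (𝓞 K) K d) * z)
    (s := Set.range
      (fun a : 𝓞 K => algebraMap K (v.adicCompletion K) (algebraMap (𝓞 K) K a)))
    (continuous_const.mul continuous_id) h1
  refine closure_mono ?_ h2
  rintro _ ⟨_, ⟨a, rfl⟩, rfl⟩
  refine ⟨d * a, 𝔫.mul_mem_right a hd, ?_⟩
  simp only [map_mul]

/-! ## Norms and valuations -/

theorem norm_eq_zpow671 (v : HeightOneSpectrum (𝓞 K)) (y : v.adicCompletion K) (n : ℤ)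
    (h : Valued.v y = WithZero.exp n) : ‖y‖ = ((Ideal.absNorm v.asIdeal : ℕ) : ℝ) ^ n := by
  have := nnnorm_eq_zpow671 v y n h
  have h2 := congrArg (fun t : NNReal => (t : ℝ)) this
  simpa using h2

theorem valued_int671 (v : HeightOneSpectrum (𝓞 K)) (x : 𝓞 K) :
    Valued.v (algebraMap K (v.adicCompletion K) (algebraMap (𝓞 K) K x)) = v.intValuation x := by
  rw [← HeightOneSpectrum.valuation_of_algebraMap (K := K)]
  exact HeightOneSpectrum.valuedAdicCompletion_eq_valuation' v _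

/-! ## The uniformiser ideles -/

/-- The idele of a uniformiser at `v`. -/
def unifIdl671 (v : HeightOneSpectrum (𝓞 K)) : (FiniteAdeleRing (𝓞 K) K)ˣ :=
  localUnit671 v (Classical.choose (exists_uniformizer_unit671 (K := K) v))

theorem valued_unifIdl671 (v : HeightOneSpectrum (𝓞 K)) :
    Valued.v (((unifIdl671 v : (FiniteAdeleRing (𝓞 K) K)ˣ) : FiniteAdeleRing (𝓞 K) K) v)
      = WithZero.exp (-1 : ℤ) := by
  unfold unifIdl671
  rw [localUnit_same671]
  exact Classical.choose_spec (exists_uniformizer_unit671 (K := K) v)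

theorem unifIdl671_of_ne {v u : HeightOneSpectrum (𝓞 K)} (h : u ≠ v) :
    ((unifIdl671 v : (FiniteAdeleRing (𝓞 K) K)ˣ) : FiniteAdeleRing (𝓞 K) K) u = 1 :=
  localUnit_of_ne671 _ h

theorem isUnifFamily_unifIdl671 : IsUnifFamily671 (unifIdl671 (K := K)) := by
  intro v
  refine ⟨?_, fun u hu => unifIdl671_of_ne hu⟩
  rw [norm_eq_zpow671 v _ (-1) (valued_unifIdl671 v), zpow_neg_one]

/-! ## The idele of an ideal -/

/-- Evaluation at a place, as a monoid homomorphism. -/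
def evalHom671 (u : HeightOneSpectrum (𝓞 K)) :
    FiniteAdeleRing (𝓞 K) K →* u.adicCompletion K where
  toFun a := a u
  map_one' := rfl
  map_mul' _ _ := rfl

theorem evalHom671_apply (u : HeightOneSpectrum (𝓞 K)) (a : FiniteAdeleRing (𝓞 K) K) :
    evalHom671 u a = a u := rfl

/-- The idele `∏_{v ∣ 𝔪} ϖ_v ^ e_v` of the ideal `𝔪 ≠ 0`. -/
def levelIdl671 (𝔪 : Ideal (𝓞 K)) (h𝔪 : 𝔪 ≠ ⊥) : (FiniteAdeleRing (𝓞 K) K)ˣ :=
  ∏ v ∈ (Ideal.finite_factors h𝔪).toFinset, unifIdl671 v ^ multiplicity v.asIdeal 𝔪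

section Level

variable {𝔪 : Ideal (𝓞 K)} (h𝔪 : 𝔪 ≠ ⊥)
include h𝔪

theorem mem_factors671 (v : HeightOneSpectrum (𝓞 K)) :
    v ∈ (Ideal.finite_factors h𝔪).toFinset ↔ v.asIdeal ∣ 𝔪 := by
  rw [Set.Finite.mem_toFinset, Set.mem_ofPred_eq]

theorem finiteMultiplicity671 (v : HeightOneSpectrum (𝓞 K)) :
    FiniteMultiplicity v.asIdeal 𝔪 :=
  FiniteMultiplicity.of_not_isUnit
    (fun h => v.isPrime.ne_top (Ideal.isUnit_iff.mp h)) h𝔪

theorem multiplicity_pos671 {v : HeightOneSpectrum (𝓞 K)} (hv : v.asIdeal ∣ 𝔪) :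
    0 < multiplicity v.asIdeal 𝔪 := by
  have := (finiteMultiplicity671 h𝔪 v).le_multiplicity_of_pow_dvd (k := 1) (by rwa [pow_one])
  exact this

theorem levelIdl671_apply (u : HeightOneSpectrum (𝓞 K)) :
    ((levelIdl671 𝔪 h𝔪 : (FiniteAdeleRing (𝓞 K) K)ˣ) : FiniteAdeleRing (𝓞 K) K) u
      = (((unifIdl671 u : (FiniteAdeleRing (𝓞 K) K)ˣ) : FiniteAdeleRing (𝓞 K) K) u)
        ^ multiplicity u.asIdeal 𝔪 := by
  classical
  unfold levelIdl671
  rw [Units.coe_prod, ← evalHom671_apply, map_prod]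
  have hterm : ∀ v : HeightOneSpectrum (𝓞 K),
      evalHom671 u (((unifIdl671 v ^ multiplicity v.asIdeal 𝔪 :
        (FiniteAdeleRing (𝓞 K) K)ˣ)) : FiniteAdeleRing (𝓞 K) K)
      = (((unifIdl671 v : (FiniteAdeleRing (𝓞 K) K)ˣ) : FiniteAdeleRing (𝓞 K) K) u)
        ^ multiplicity v.asIdeal 𝔪 := by
    intro v
    rw [Units.val_pow_eq_pow_val, map_pow, evalHom671_apply]
  simp only [hterm]
  rw [Finset.prod_eq_single u]
  · intro v _ hvu
    rw [unifIdl671_of_ne (Ne.symm hvu), one_pow]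
  · intro hu
    rw [mem_factors671 h𝔪] at hu
    rw [multiplicity_eq_zero.mpr hu, pow_zero]

theorem valued_levelIdl671 (u : HeightOneSpectrum (𝓞 K)) :
    Valued.v (((levelIdl671 𝔪 h𝔪 : (FiniteAdeleRing (𝓞 K) K)ˣ) : FiniteAdeleRing (𝓞 K) K) u)
      = WithZero.exp (-(multiplicity u.asIdeal 𝔪 : ℤ)) := by
  rw [levelIdl671_apply, map_pow, valued_unifIdl671, ← WithZero.exp_nsmul]
  simp

theorem levelIdl671_of_not_dvd {u : HeightOneSpectrum (𝓞 K)} (hu : ¬ u.asIdeal ∣ 𝔪) :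
    ((levelIdl671 𝔪 h𝔪 : (FiniteAdeleRing (𝓞 K) K)ˣ) : FiniteAdeleRing (𝓞 K) K) u = 1 := by
  rw [levelIdl671_apply, multiplicity_eq_zero.mpr hu, pow_zero]

theorem norm_levelIdl671 (u : HeightOneSpectrum (𝓞 K)) :
    ‖((levelIdl671 𝔪 h𝔪 : (FiniteAdeleRing (𝓞 K) K)ˣ) : FiniteAdeleRing (𝓞 K) K) u‖
      = (((Ideal.absNorm u.asIdeal : ℕ) : ℝ)⁻¹) ^ multiplicity u.asIdeal 𝔪 := by
  rw [norm_eq_zpow671 u _ _ (valued_levelIdl671 h𝔪 u), zpow_neg, zpow_natCast, inv_pow]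

theorem norm_levelIdl671_lt_one {u : HeightOneSpectrum (𝓞 K)} (hu : u.asIdeal ∣ 𝔪) :
    ‖((levelIdl671 𝔪 h𝔪 : (FiniteAdeleRing (𝓞 K) K)ˣ) : FiniteAdeleRing (𝓞 K) K) u‖ < 1 := by
  rw [norm_levelIdl671]
  have h1 := absNorm_pos671 u
  have h2 : ((Ideal.absNorm u.asIdeal : ℕ) : ℝ)⁻¹ < 1 := inv_lt_one_of_one_lt₀ h1
  have h3 : 0 ≤ ((Ideal.absNorm u.asIdeal : ℕ) : ℝ)⁻¹ := by positivity
  exact pow_lt_one₀ h3 h2 (multiplicity_pos671 h𝔪 hu).ne'

/-- An element of `𝔪` of minimal valuation at `u`. -/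
theorem exists_mem_intValuation_eq671 (u : HeightOneSpectrum (𝓞 K)) :
    ∃ x ∈ 𝔪, u.intValuation x = WithZero.exp (-(multiplicity u.asIdeal 𝔪 : ℤ)) := by
  have hnot : ¬ u.asIdeal ^ (multiplicity u.asIdeal 𝔪 + 1) ∣ 𝔪 :=
    (finiteMultiplicity671 h𝔪 u).not_pow_dvd_of_multiplicity_lt (Nat.lt_succ_self _)
  have hle : ¬ 𝔪 ≤ u.asIdeal ^ (multiplicity u.asIdeal 𝔪 + 1) := fun h =>
    hnot (Ideal.dvd_iff_le.mpr h)
  obtain ⟨x, hx, hxn⟩ := SetLike.not_le_iff_exists.1 hle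
  refine ⟨x, hx, ?_⟩
  have h1 : u.intValuation x ≤ WithZero.exp (-(multiplicity u.asIdeal 𝔪 : ℤ)) :=
    (u.intValuation_le_pow_iff_dvd x _).mpr
      (dvd_trans (pow_multiplicity_dvd _ _) (Ideal.dvd_span_singleton.mpr hx))
  have h2 : ¬ u.intValuation x ≤ WithZero.exp (-((multiplicity u.asIdeal 𝔪 + 1 : ℕ) : ℤ)) :=
    fun h => hxn ((u.intValuation_le_pow_iff_mem x _).mp h)
  have hx0 : u.intValuation x ≠ 0 := by
    intro h0
    apply h2
    rw [h0]
    exact zero_le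
  obtain ⟨k, hk⟩ : ∃ k : ℤ, u.intValuation x = WithZero.exp k :=
    ⟨WithZero.log (u.intValuation x), (WithZero.exp_log hx0).symm⟩
  rw [hk] at h1 h2 ⊢
  rw [WithZero.exp_le_exp] at h1 h2
  push_cast at h2
  congr 1
  omega

theorem idealClosure_eq_levelIdl671 (u : HeightOneSpectrum (𝓞 K)) :
    idealClosure 𝔪 u
      = {t | ‖t‖ ≤ ‖((levelIdl671 𝔪 h𝔪 : (FiniteAdeleRing (𝓞 K) K)ˣ) :
          FiniteAdeleRing (𝓞 K) K) u‖} := by
  apply Set.Subset.antisymm
  · unfold idealClosure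
    refine closure_minimal ?_ (isClosed_le continuous_norm continuous_const)
    rintro _ ⟨x, hx, rfl⟩
    show ‖_‖ ≤ ‖_‖
    rw [Valued.toNormedField.norm_le_iff, valued_levelIdl671, valued_int671]
    exact (u.intValuation_le_pow_iff_dvd x _).mpr
      (dvd_trans (pow_multiplicity_dvd _ _) (Ideal.dvd_span_singleton.mpr hx))
  · intro t ht
    have ht' : Valued.v t ≤ WithZero.exp (-(multiplicity u.asIdeal 𝔪 : ℤ)) := by
      have := (Valued.toNormedField.norm_le_iff).mp ht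
      rwa [valued_levelIdl671] at this
    obtain ⟨x₀, hx₀, hval⟩ := exists_mem_intValuation_eq671 h𝔪 u
    set ι := algebraMap K (u.adicCompletion K) (algebraMap (𝓞 K) K x₀) with hι
    have hιv : Valued.v ι = WithZero.exp (-(multiplicity u.asIdeal 𝔪 : ℤ)) := by
      rw [hι, valued_int671, hval]
    have hι0 : ι ≠ 0 := by
      intro h0
      rw [h0, map_zero] at hιv
      exact WithZero.exp_ne_zero hιv.symm
    have hy : Valued.v (ι⁻¹ * t) ≤ 1 := by
      rw [map_mul, map_inv₀, hιv]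
      rw [inv_mul_le_iff₀ WithZero.exp_pos, mul_one]
      exact ht'
    have := mul_mem_idealClosure671 u 𝔪 hx₀ hy
    rwa [← hι, mul_inv_cancel_left₀ hι0] at this

theorem finNormI_levelIdl671 :
    finNormI671 (levelIdl671 𝔪 h𝔪) = ((Ideal.absNorm 𝔪 : ℕ) : ℝ)⁻¹ := by
  classical
  unfold levelIdl671
  rw [finNormI671_prod]
  have hterm : ∀ v : HeightOneSpectrum (𝓞 K),
      finNormI671 (unifIdl671 v ^ multiplicity v.asIdeal 𝔪)
        = (((Ideal.absNorm v.asIdeal : ℕ) : ℝ)⁻¹) ^ multiplicity v.asIdeal 𝔪 := by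
    intro v
    have := map_pow (finNormHom671 (K := K)) (unifIdl671 v) (multiplicity v.asIdeal 𝔪)
    rw [show finNormI671 (unifIdl671 v ^ multiplicity v.asIdeal 𝔪)
      = finNormHom671 (unifIdl671 v ^ multiplicity v.asIdeal 𝔪) from rfl, this]
    show finNormI671 (unifIdl671 v) ^ _ = _
    rw [finNormI671_unif isUnifFamily_unifIdl671]
  simp only [hterm]
  -- the norm of `𝔪`
  have hfac := Ideal.finprod_heightOneSpectrum_pow_multiplicity h𝔪
  have hsupp : Function.mulSupport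
      (fun v : HeightOneSpectrum (𝓞 K) => v.asIdeal ^ multiplicity v.asIdeal 𝔪)
      ⊆ ((Ideal.finite_factors h𝔪).toFinset : Set (HeightOneSpectrum (𝓞 K))) := by
    intro v hv
    rw [Finset.mem_coe, mem_factors671 h𝔪]
    by_contra hnd
    apply hv
    show v.asIdeal ^ multiplicity v.asIdeal 𝔪 = 1
    rw [multiplicity_eq_zero.mpr hnd, pow_zero]
  rw [finprod_eq_prod_of_mulSupport_subset _ hsupp] at hfac
  have hN : Ideal.absNorm 𝔪
      = ∏ v ∈ (Ideal.finite_factors h𝔪).toFinset,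
          Ideal.absNorm v.asIdeal ^ multiplicity v.asIdeal 𝔪 := by
    conv_lhs => rw [← hfac]
    rw [map_prod]
    exact Finset.prod_congr rfl fun v _ => map_pow _ _ _
  rw [hN]
  push_cast
  rw [← Finset.prod_inv_distrib]
  exact Finset.prod_congr rfl fun v _ => (inv_pow _ _)

theorem isLevelIdele_levelIdl671 : IsLevelIdele671 𝔪 (levelIdl671 𝔪 h𝔪) :=
  ⟨fun u => idealClosure_eq_levelIdl671 h𝔪 u, fun _ hu => norm_levelIdl671_lt_one h𝔪 hu,
    fun _ hu => levelIdl671_of_not_dvd h𝔪 hu, finNormI_levelIdl671 h𝔪⟩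

end Level

/-- **T7.14.3h `LocalIdeleC`**, every number field. -/
theorem localIdeleC671 (K : Type) [Field K] [NumberField K] : LocalIdeleC K :=
  ⟨fun 𝔪 h𝔪 => ⟨levelIdl671 𝔪 h𝔪, isLevelIdele_levelIdl671 h𝔪⟩,
    ⟨unifIdl671, isUnifFamily_unifIdl671⟩⟩

end Fermat.Agent.LT.T7.H671

end
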